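import Fermat.Agent.S26.UFD.PowerSeries
import Mathlib.RingTheory.Henselian
import Mathlib.RingTheory.LaurentSeries

/-! # ES/An : formal `m`-th roots in `K((q))`, `K` algebraically closed of characteristic `0`. -/

set_option autoImplicit false

namespace Fermat.Agent.ES.An

open Polynomial in
/-- A power series with constant coefficient `1` has an `m`-th root (Hensel). -/
theorem exists_pow_eq_powerSeries {K : Type*} [Field K] [CharZero K] (m : ℕ) (hm : 0 < m)
    (P : PowerSeries K) (hP : PowerSeries.constantCoeff P = 1) :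
    ∃ R : PowerSeries K, R ^ m = P ∧ PowerSeries.constantCoeff R = 1 := by
  have hc : IsAdicComplete (IsLocalRing.maximalIdeal (PowerSeries K)) (PowerSeries K) :=
    Fermat.Agent.S26.UFDPS.isAdicComplete_maximalIdeal Unit K
  have hH : HenselianRing (PowerSeries K) (IsLocalRing.maximalIdeal (PowerSeries K)) :=
    inferInstance
  have hmem : ∀ Q : PowerSeries K, Q ∈ IsLocalRing.maximalIdeal (PowerSeries K) ↔
      PowerSeries.constantCoeff Q = 0 := by
    intro Q
    rw [IsLocalRing.mem_maximalIdeal, mem_nonunits_iff, PowerSeries.isUnit_iff_constantCoeff,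
      isUnit_iff_ne_zero, not_not]
  obtain ⟨a, ha, ha1⟩ := hH.is_henselian (X ^ m - C P) (monic_X_pow_sub_C P hm.ne') 1
    (by
      rw [hmem]
      simp [hP])
    (by
      have : (derivative (X ^ m - C P : (PowerSeries K)[X])).eval 1 = (m : PowerSeries K) := by
        simp [derivative_X_pow]
      rw [this]
      apply IsUnit.map
      rw [PowerSeries.isUnit_iff_constantCoeff]
      simp [hm.ne'])
  refine ⟨a, ?_, ?_⟩
  · have := ha
    simp only [IsRoot.def, eval_sub, eval_pow, eval_X, eval_C] at this
    exact sub_eq_zero.mp this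
  · have := (hmem _).mp ha1
    rw [map_sub, map_one] at this
    exact sub_eq_zero.mp this

/-- A nonzero Laurent series whose order is divisible by `m` has an `m`-th root. -/
theorem exists_pow_eq_laurentSeries {K : Type*} [Field K] [IsAlgClosed K] [CharZero K] (m : ℕ)
    (hm : 0 < m) (x : LaurentSeries K) (hx : x ≠ 0) (hord : (m : ℤ) ∣ x.order) :
    ∃ u : LaurentSeries K, u ^ m = x := by
  obtain ⟨k, hk⟩ := hord
  set P := x.powerSeriesPart with hPdef
  have hP0 : PowerSeries.constantCoeff P ≠ 0 := by
    rw [← PowerSeries.coeff_zero_eq_constantCoeff_apply, hPdef, LaurentSeries.powerSeriesPart_coeff]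
    simpa using (not_congr HahnSeries.coeff_order_eq_zero).mpr hx
  set c := PowerSeries.constantCoeff P with hc
  obtain ⟨d, hd⟩ := IsAlgClosed.exists_pow_nat_eq c hm
  obtain ⟨R, hR, -⟩ := exists_pow_eq_powerSeries m hm (PowerSeries.C c⁻¹ * P) (by
    rw [map_mul, PowerSeries.constantCoeff_C, ← hc, inv_mul_cancel₀ hP0])
  refine ⟨HahnSeries.single k (1 : K) * HahnSeries.ofPowerSeries ℤ K (PowerSeries.C d * R), ?_⟩
  have h1 : (PowerSeries.C d * R) ^ m = P := by
    rw [mul_pow, hR, ← map_pow, hd, ← mul_assoc, ← map_mul, mul_inv_cancel₀ hP0, map_one, one_mul]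
  have h2 : m • k = x.order := by rw [hk]; simp
  rw [mul_pow, HahnSeries.single_pow, one_pow, ← map_pow, h1, h2]
  exact LaurentSeries.single_order_mul_powerSeriesPart x

end Fermat.Agent.ES.An
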