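import Fermat.Agent.S24.Counting

/-! # ES/An-Package : generic divisibility lemma extracted from `S24/Counting.lean`.

Copy the proof of `S24.Counting.card_zeroPlaces_core` (places `v a` and multiplicities `c a` attached to the embeddings,
`c a * (v a).ord u = E₀`, `hper`, `hsurj`, the counting).  The counting gives moreover EQUALITY
`(v a).ord u = ` size `n` of the `γ₀`-orbit of `a` (sum of sizes `= ∑ e`, `e ≤` size, `p` surjective).
Then `γ₀ ^ n • a = a`, so by `hUinv` every `k` with `(U a).coeff k ≠ 0` satisfies `ζ ^ (k n) = 1`, i.e. `E₀ ∣ k n`, i.e.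
`c a ∣ k`; hence `c a ∣ (U a).order`, and `c a * (v a).ord f = (σ a f).order = m * (U a).order` gives
`m ∣ (v a).ord f`.  Every place `v` with `0 < v.ord u` is some `v a`. -/

set_option autoImplicit false

open AlgebraicCurve
open scoped IntermediateField IntermediateField.algebraAdjoinAdjoin

namespace Fermat.Agent.ES.An

open Fermat.Agent.S24 Fermat.Agent.S24.Counting
open Fermat.Agent.S24.FF hiding zeroPlaces ord_nonneg_of_isIntegral

/-- Equality case of the counting argument of `S24.Counting.card_eq_of_sums`. -/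
theorem Package.eq_of_sums {Q Z : Type*} [Fintype Q] [Fintype Z] (p : Q → Z)
    (hp : Function.Surjective p) (s : Q → ℕ) (e : Z → ℕ) (hs : ∀ q, e (p q) ≤ s q)
    (hsum : ∑ q, s q = ∑ z, e z) (q : Q) : e (p q) = s q := by
  classical
  have h1 : ∑ q, e (p q) = ∑ z, (Finset.univ.filter fun q => p q = z).card • e z := by
    have := Finset.sum_comp (s := (Finset.univ : Finset Q)) e p
    rw [this]
    have himg : (Finset.univ : Finset Q).image p = Finset.univ := by
      ext z; simpa using hp z
    rw [himg]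
  have h2 : ∀ z, e z ≤ (Finset.univ.filter fun q => p q = z).card • e z := by
    intro z
    obtain ⟨q, hq⟩ := hp z
    have : 0 < (Finset.univ.filter fun q => p q = z).card :=
      Finset.card_pos.mpr ⟨q, by simp [hq]⟩
    rw [smul_eq_mul]
    exact Nat.le_mul_of_pos_left _ this
  have h3 : ∑ q, e (p q) ≤ ∑ q, s q := Finset.sum_le_sum fun q _ => hs q
  have h4 : ∑ z, e z ≤ ∑ z, (Finset.univ.filter fun q => p q = z).card • e z :=
    Finset.sum_le_sum fun z _ => h2 z
  have h5 : ∑ q, e (p q) = ∑ q, s q := by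
    apply le_antisymm h3
    rw [hsum, h1]; exact h4
  exact (Finset.sum_eq_sum_iff_of_le fun q _ => hs q).mp h5 q (Finset.mem_univ q)

theorem dvd_ord_of_package {K F : Type*} [Field K] [IsAlgClosed K] [CharZero K] [Field F]
    [Algebra K F] [Algebra K ℂ]
    (u : F) (hu : Transcendental K u) [FiniteDimensional K⟮u⟯ F]
    {G X : Type*} [Group G] [MulAction G X] [Finite X]
    (σ : X → F →ₐ[K] LaurentSeries ℂ) (hσ : Function.Injective σ)
    (hcard : Nat.card X = Module.finrank K⟮u⟯ F)
    (hσu : ∀ a b, σ a u = σ b u)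
    (E₀ : ℕ) (hE₀ : 0 < E₀) (hord : ∀ a, (σ a u).order = (E₀ : ℤ))
    (ζ : ℂ) (hζ : IsPrimitiveRoot ζ E₀) (γ₀ : G)
    (hΘ : ∀ a f (k : ℤ), (σ (γ₀ • a) f).coeff k = ζ ^ k * (σ a f).coeff k)
    (m : ℕ) (f : F) (hf : f ≠ 0) (U : X → LaurentSeries ℂ) (hU : ∀ a, σ a f = U a ^ m)
    (hUinv : ∀ (a : X) (n : ℕ), γ₀ ^ n • a = a →
      ∀ k : ℤ, (U a).coeff k = (ζ ^ k) ^ n * (U a).coeff k)
    (v : Place K F) (hv : 0 < v.ord u) : (m : ℤ) ∣ v.ord f := by
  rename' v => v₁, hv => hv₁
  classical
  have : Fintype X := Fintype.ofFinite X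
  have hζ0 : ζ ≠ 0 := hζ.ne_zero hE₀.ne'
  have hu0 : u ≠ 0 := by
    rintro rfl
    exact hu (isAlgebraic_zero)
  have hσne : ∀ a (f : F), f ≠ 0 → σ a f ≠ 0 := fun a f hf =>
    (map_ne_zero_iff _ (σ a).toRingHom.injective).mpr hf
  -- the places attached to the embeddings
  have hex : ∀ a, ∃ (v : Place K F) (c : ℕ), 0 < c ∧
      ∀ f, f ≠ 0 → (σ a f).order = c * v.ord f := by
    intro a
    refine exists_place_of_ordFun (fun f => (σ a f).order) ?_ ?_ ?_ ?_
    · intro f g hf hg
      show (σ a (f * g)).order = _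
      rw [map_mul, HahnSeries.order_mul (hσne a f hf) (hσne a g hg)]
    · intro f g hf hg hfg
      show _ ≤ (σ a (f + g)).order
      rw [map_add]
      apply HahnSeries.min_order_le_order_add
      rw [← map_add]
      exact hσne a _ hfg
    · intro c _
      show (σ a (algebraMap K F c)).order = 0
      have h : algebraMap K (LaurentSeries ℂ) c = HahnSeries.C (algebraMap K ℂ c) := by
        rw [HahnSeries.algebraMap_apply', PowerSeries.algebraMap_apply,
          HahnSeries.ofPowerSeries_C]
      rw [AlgHom.commutes, h, HahnSeries.order_C]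
    · exact ⟨u, hu0, by show (σ a u).order ≠ 0; rw [hord]; exact_mod_cast hE₀.ne'⟩
  choose v c hc hv using hex
  have hcZ : ∀ a, (0 : ℤ) < c a := fun a => by exact_mod_cast hc a
  have hvu : ∀ a, (c a : ℤ) * (v a).ord u = E₀ := fun a => by rw [← hv a u hu0, hord]
  have hvupos : ∀ a, 0 < (v a).ord u := by
    intro a
    have h1 := hvu a
    have h2 := hcZ a
    have h3 : (0 : ℤ) < E₀ := by exact_mod_cast hE₀
    by_contra hneg
    rw [not_lt] at hneg
    nlinarith
  -- invariance under `γ₀`
  have hvγ : ∀ a, v (γ₀ • a) = v a := by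
    intro a
    apply eq_of_forall_ord_nonneg
    intro f hf
    by_cases hf0 : f = 0
    · rw [hf0]; simp [Place.ord]
    have h1 := hv (γ₀ • a) f hf0
    have h2 := hv a f hf0
    rw [order_eq_of_coeff hζ0 (hΘ a f), h2] at h1
    have h3 := hcZ a
    have h4 := hcZ (γ₀ • a)
    by_contra hneg
    rw [not_le] at hneg
    nlinarith
  have hvz : ∀ (n : ℤ) (a : X), v (γ₀ ^ n • a) = v a := by
    intro n
    induction n using Int.induction_on with
    | zero => intro a; simp
    | succ n ih => intro a; rw [zpow_add_one, mul_smul, ih, hvγ]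
    | pred n ih =>
      intro a
      rw [zpow_sub_one, mul_smul, ih]
      conv_rhs => rw [← smul_inv_smul γ₀ a]
      rw [hvγ]
  have hΘpow : ∀ (m : ℕ) a f (k : ℤ),
      (σ (γ₀ ^ m • a) f).coeff k = (ζ ^ k) ^ m * (σ a f).coeff k := by
    intro m
    induction m with
    | zero => intro a f k; simp
    | succ m ih =>
      intro a f k
      rw [pow_succ', mul_smul, hΘ, ih, pow_succ']
      ring
  -- a period of `a` is a multiple of the ramification index
  have hper : ∀ (a : X) (m : ℕ), 0 < m → γ₀ ^ m • a = a → (v a).ord u ≤ m := by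
    intro a m hm hma
    obtain ⟨π, hπ⟩ := exists_ord_eq_one (v a)
    have hπ0 : π ≠ 0 := ne_zero_of_ord_ne_zero (v a) (by rw [hπ]; exact one_ne_zero)
    have h1 : (σ a π).order = c a := by rw [hv a π hπ0, hπ, mul_one]
    have h2 := hΘpow m a π (c a)
    rw [hma] at h2
    have h3 : (σ a π).coeff (c a) ≠ 0 := by
      rw [← h1]; exact HahnSeries.coeff_order_eq_zero.not.mpr (hσne a π hπ0)
    have h4 : (ζ ^ (c a : ℤ)) ^ m = 1 := by
      have : ((ζ ^ (c a : ℤ)) ^ m - 1) * (σ a π).coeff (c a) = 0 := by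
        rw [sub_mul, one_mul, ← h2, sub_self]
      have := (mul_eq_zero.mp this).resolve_right h3
      exact sub_eq_zero.mp this
    rw [zpow_natCast, ← pow_mul] at h4
    have h5 : E₀ ∣ c a * m := hζ.dvd_of_pow_eq_one _ h4
    obtain ⟨e, he⟩ : ∃ e : ℕ, (v a).ord u = e := ⟨((v a).ord u).toNat, by
      rw [Int.toNat_of_nonneg (hvupos a).le]⟩
    have h6 : c a * e = E₀ := by
      have := hvu a
      rw [he] at this
      exact_mod_cast this
    rw [← h6] at h5
    have h7 : e ∣ m := Nat.dvd_of_mul_dvd_mul_left (hc a) h5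
    rw [he]
    exact_mod_cast Nat.le_of_dvd hm h7
  -- every zero of `u` comes from an embedding
  have hXne : Nonempty X := by
    have : 0 < Nat.card X := by rw [hcard]; exact Module.finrank_pos
    exact (Nat.card_pos_iff.mp this).1
  obtain ⟨a₀⟩ := hXne
  have hsurj : ∀ v' : Place K F, 0 < v'.ord u → ∃ a, v a = v' := by
    intro v' hv'
    by_contra hno
    rw [not_exists] at hno
    obtain ⟨f, hfint, hfv', hfs⟩ := exists_integral_avoid K u hu v' hv' (Finset.univ.image v)
      (by
        intro hmem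
        obtain ⟨a, -, ha⟩ := Finset.mem_image.mp hmem
        exact hno a ha)
      (by
        intro w hw
        obtain ⟨a, -, rfl⟩ := Finset.mem_image.mp hw
        exact hvupos a)
    have hf0 : f ≠ 0 := ne_zero_of_ord_ne_zero v' hfv'.ne'
    have h1 : ∀ a, (σ a f).order = 0 := fun a => by
      rw [hv a f hf0, hfs (v a) (Finset.mem_image_of_mem v (Finset.mem_univ a)), mul_zero]
    have h2 := sigma_norm_eq_prod u σ hσ (by rw [← hcard, Nat.card_eq_fintype_card]) hσu a₀ f
    have h3 : (σ a₀ ((Algebra.norm K⟮u⟯ f : K⟮u⟯) : F)).order = 0 := by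
      rw [h2]; exact order_prod_eq_zero _ _ (fun a _ => hσne a f hf0) (fun a _ => h1 a)
    have hN := ord_norm_pos v' hv'.le hfint hfv'
    have hN0 : ((Algebra.norm K⟮u⟯ f : K⟮u⟯) : F) ≠ 0 := ne_zero_of_ord_ne_zero v' hN.ne'
    rw [hv a₀ _ hN0] at h3
    have h4 : (v a₀).ord ((Algebra.norm K⟮u⟯ f : K⟮u⟯) : F) = 0 := by
      rcases mul_eq_zero.mp h3 with h | h
      · exact absurd h (hcZ a₀).ne'
      · exact h
    have h5 := ord_mul_ord_eq v' (v a₀) hv' (hvupos a₀) hu (Algebra.norm K⟮u⟯ f).2
    rw [h4, zero_mul] at h5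
    rcases mul_eq_zero.mp h5 with h | h
    · exact hN.ne' h
    · exact (hvupos a₀).ne' h
  -- counting
  have hZfin : (zeroPlaces K u).Finite := zeroPlaces_finite K u hu
  have hZsum : ∑ w ∈ hZfin.toFinset, w.ord u = (Module.finrank K⟮u⟯ F : ℤ) :=
    sum_ord_zeroPlaces K u hu
  have : Fintype (zeroPlaces K u) := hZfin.fintype
  have : Fintype (MulAction.orbitRel.Quotient (Subgroup.zpowers γ₀) X) := Fintype.ofFinite _
  let p : MulAction.orbitRel.Quotient (Subgroup.zpowers γ₀) X → zeroPlaces K u :=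
    Quotient.lift (fun a => (⟨v a, hvupos a⟩ : zeroPlaces K u)) (by
      intro a b hab
      have hab' : a ∈ MulAction.orbit (Subgroup.zpowers γ₀) b := MulAction.orbitRel_apply.mp hab
      obtain ⟨⟨g, n, rfl⟩, hg⟩ := hab'
      apply Subtype.ext
      show v a = v b
      rw [← hg]
      exact hvz n b)
  have hp : Function.Surjective p := by
    rintro ⟨v', hv'⟩
    obtain ⟨a, ha⟩ := hsurj v' hv'
    exact ⟨Quotient.mk'' a, Subtype.ext ha⟩
  have key := Package.eq_of_sums p hp
    (fun q => (Finset.univ.filter fun b : X =>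
      (Quotient.mk'' b : MulAction.orbitRel.Quotient (Subgroup.zpowers γ₀) X) = q).card)
    (fun z => (z.1.ord u).toNat) ?_ ?_
  · obtain ⟨a, rfl⟩ := hsurj v₁ hv₁
    obtain ⟨n, hn, hna, hnc⟩ := exists_period γ₀ a
    have hkey := key (Quotient.mk'' a)
    have he : ((v a).ord u).toNat = n := by
      rw [hnc]; exact hkey
    have he' : (v a).ord u = n := by
      rw [← he, Int.toNat_of_nonneg (hvupos a).le]
    have hcn : (c a : ℤ) * n = E₀ := by rw [← he']; exact hvu a
    -- `c a ∣ (U a).order`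
    have hdvd : (c a : ℤ) ∣ (U a).order := by
      by_cases hU0 : U a = 0
      · rw [hU0]; simp
      have h1 := hUinv a n hna (U a).order
      have h3 : (U a).coeff (U a).order ≠ 0 := HahnSeries.coeff_order_eq_zero.not.mpr hU0
      have h4 : (ζ ^ (U a).order) ^ n = 1 := by
        have : ((ζ ^ (U a).order) ^ n - 1) * (U a).coeff (U a).order = 0 := by
          rw [sub_mul, one_mul, ← h1, sub_self]
        exact sub_eq_zero.mp ((mul_eq_zero.mp this).resolve_right h3)
      rw [← zpow_natCast, ← zpow_mul] at h4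
      have h5 : (E₀ : ℤ) ∣ (U a).order * n := (hζ.zpow_eq_one_iff_dvd _).mp h4
      rw [← hcn] at h5
      exact Int.dvd_of_mul_dvd_mul_right (by exact_mod_cast hn.ne') h5
    obtain ⟨t, ht⟩ := hdvd
    have h6 : (c a : ℤ) * (v a).ord f = m * (U a).order := by
      rw [← hv a f hf, hU a, HahnSeries.order_pow]
      simp
    refine ⟨t, ?_⟩
    rw [ht] at h6
    have : (c a : ℤ) * (v a).ord f = c a * (m * t) := by rw [h6]; ring
    exact mul_left_cancel₀ (hcZ a).ne' this
  · intro q
    induction q using Quotient.inductionOn' with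
    | h a =>
      obtain ⟨m, hm, hma, hmc⟩ := exists_period γ₀ a
      have := hper a m hm hma
      show ((v a).ord u).toNat ≤ _
      rw [← hmc]
      omega
  · have h1 := Finset.card_eq_sum_card_fiberwise
      (f := fun b : X => (Quotient.mk'' b : MulAction.orbitRel.Quotient (Subgroup.zpowers γ₀) X))
      (s := Finset.univ) (t := Finset.univ)
      (fun _ _ => Finset.mem_coe.mpr (Finset.mem_univ _))
    rw [← h1, Finset.card_univ, ← Nat.card_eq_fintype_card, hcard]
    have h2 : ((∑ z : zeroPlaces K u, (z.1.ord u).toNat : ℕ) : ℤ)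
        = (Module.finrank K⟮u⟯ F : ℤ) := by
      rw [← hZsum, Nat.cast_sum,
        Finset.sum_subtype hZfin.toFinset (p := fun w => w ∈ zeroPlaces K u)
          (fun w => hZfin.mem_toFinset) (fun w => w.ord u)]
      refine Finset.sum_congr rfl fun z _ => ?_
      have : 0 < z.1.ord u := z.2
      exact Int.toNat_of_nonneg this.le
    exact_mod_cast h2.symm

end Fermat.Agent.ES.An
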