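import Fermat.Agent.ES.An.Basic
import Fermat.Agent.ES.An.Package

/-! # ES/An-Model : abstract "model" of `X₀(N)` over `K ∈ {ℚ̄, ℂ}` inside `Mer`; dictionary places ↔ points.

`Model.dvd_ordAt` (Dict-1): `f ↦ ordAt τ (M.φ f)` is an "ordFun" on `F` trivial on `K`; by
`S24.FF.exists_place_of_ordFun` it is `c * P.ord` for a place `P`, or identically `0`. -/

set_option autoImplicit false

open AlgebraicCurve ModularCurve UpperHalfPlane
open scoped MatrixGroups IntermediateField Manifold ModularForm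

namespace Fermat.Agent.ES.An

open Fermat.Agent.S24

noncomputable section

/-- A function field `F/K` realised inside `Mer` as the function field of `X₀(N)`. -/
structure Model (N : ℕ) [NeZero N] (K F : Type) [Field K] [Field F] [Algebra K F] [Algebra K ℂ] where
  φ : F →+* Mer
  φ_alg : ∀ c : K, φ (algebraMap K F c) = algebraMap ℂ Mer (algebraMap K ℂ c)
  j : F
  φ_j : φ j = jMer
  tr : Transcendental K j
  fin : FiniteDimensional K⟮j⟯ F
  deg : Module.finrank K⟮j⟯ F = Nat.card (XN N)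
  inv : ∀ (γ : CongruenceSubgroup.Gamma0 N) (f : F), cmp (slp (γ : SL(2, ℤ))) (φ f) = φ f
  sep : ∀ g : SL(2, ℤ), (∀ f : F, cmp (slp g) (φ f) = φ f) → g ∈ CongruenceSubgroup.Gamma0 N
  cusp : ∀ (g : SL(2, ℤ)) (f : F), cmp (slp g) (φ f) ∈ MerCusp N

variable {N : ℕ} [NeZero N] {K F : Type} [Field K] [Field F] [Algebra K F] [Algebra K ℂ]

/-- Dict-1 (algebraic ⇒ analytic). -/
theorem Model.dvd_ordAt (M : Model N K F) (m : ℕ) (f : F) (hf : DivBy K m f) (τ : ℍ) :
    (m : ℤ) ∣ ordAt τ (M.φ f) := by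
  by_cases hf0 : f = 0
  · subst hf0
    simp [ordAt]
  have hne : ∀ g : F, g ≠ 0 → M.φ g ≠ 0 := fun g hg => by
    rwa [Ne, map_eq_zero]
  by_cases hnt : ∃ g : F, g ≠ 0 ∧ ordAt τ (M.φ g) ≠ 0
  · obtain ⟨v, c, -, hv⟩ := FF.exists_place_of_ordFun (K := K) (fun g : F => ordAt τ (M.φ g))
      (fun g h hg hh => by
        show ordAt τ (M.φ (g * h)) = _
        rw [map_mul, ordAt_mul τ (hne g hg) (hne h hh)])
      (fun g h hg hh hgh => by
        show _ ≤ ordAt τ (M.φ (g + h))
        rw [map_add]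
        apply min_ordAt_le_add
        rw [← map_add]
        exact hne _ hgh)
      (fun c _ => by
        show ordAt τ (M.φ (algebraMap K F c)) = 0
        rw [M.φ_alg, ordAt_const])
      hnt
    rw [hv f hf0]
    exact Dvd.dvd.mul_left (hf v) _
  · push Not at hnt
    rw [hnt f hf0]
    exact dvd_zero _

end

end Fermat.Agent.ES.An
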