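import Fermat.Agent.ES.An.Degree
import Fermat.Agent.ES.An.Model
import Fermat.Agent.S28.LD

/-! # ES/An-BC : base change `FN N = F_ℚ̄ → FC N = F_ℂ`, the two models.

* `mem_FN_of_coeffMap_mem`: take a `ℚ̄(j)`-basis `b` of `FN N` (`S24.finrank_FN`); if `x ∉ FN N` then `(b, x)` is
  `ℚ̄(j)`-independent in `ℚ̄((q))`, so by `S28.linearIndependent_coeffMap` its image is `ℂ(j)`-independent inside `FC N`,
  contradicting `finrank_FC`.
* `exists_root_of_bc`: `h ^ m = bc f`.  The `q`-order of `f` is divisible by `m`; `f` has an `m`-th root `h₀ ∈ ℚ̄((q))` (leading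
  coefficient: `ℚ̄` alg. closed; `1 + …`: Hensel / binomial series, or: define the coefficients of `h` recursively and show they
  are algebraic); `h = ζ • coeffMap h₀`, so `coeffMap h₀ ∈ FC N` and `h₀ ∈ FN N`. -/

set_option autoImplicit false

open AlgebraicCurve ModularCurve UpperHalfPlane
open scoped MatrixGroups IntermediateField Manifold ModularForm

namespace Fermat.Agent.ES.An

open Fermat.Agent.S24

noncomputable section

/-! ### generic lemmas -/

theorem BC_binomialSeries_nsmul {K : Type*} [Field K] [CharZero K] (r : K) (n : ℕ) :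
    PowerSeries.binomialSeries K (n • r) = PowerSeries.binomialSeries K r ^ n := by
  induction n with
  | zero => simp
  | succ n ih => rw [succ_nsmul, PowerSeries.binomialSeries_add, ih, pow_succ]

/-- `m`-th roots of `1`-units. -/
theorem BC_exists_root_one_unit {K : Type*} [Field K] [CharZero K] (m : ℕ) (hm : 0 < m)
    (u : LaurentSeries K) (hu : 0 < (u - 1).orderTop) : ∃ w : LaurentSeries K, w ^ m = u := by
  refine ⟨PowerSeries.heval (u - 1) (PowerSeries.binomialSeries K ((m : K)⁻¹)), ?_⟩
  rw [← map_pow, ← BC_binomialSeries_nsmul]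
  have h1 : m • ((m : K)⁻¹) = ((1 : ℕ) : K) := by
    rw [nsmul_eq_mul, mul_inv_cancel₀ (Nat.cast_ne_zero.2 hm.ne'), Nat.cast_one]
  rw [h1, PowerSeries.binomialSeries_nat, pow_one, map_add, map_one, PowerSeries.heval_X _ hu]
  ring

/-- `m`-th roots in `K((q))`, `K` algebraically closed of characteristic zero. -/
theorem BC_exists_root {K : Type*} [Field K] [CharZero K] [IsAlgClosed K] (m : ℕ) (hm : 0 < m)
    (f : LaurentSeries K) (hf : (m : ℤ) ∣ f.order) : ∃ w : LaurentSeries K, w ^ m = f := by
  rcases eq_or_ne f 0 with rfl | hf0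
  · exact ⟨0, zero_pow hm.ne'⟩
  obtain ⟨a, ha⟩ := hf
  have hc : f.leadingCoeff ≠ 0 := HahnSeries.leadingCoeff_ne_zero.2 hf0
  obtain ⟨c₀, hc₀⟩ := IsAlgClosed.exists_pow_nat_eq f.leadingCoeff hm
  set s : LaurentSeries K := HahnSeries.single (-f.order) (f.leadingCoeff)⁻¹ with hs
  have hu : 0 < (f * s - 1).orderTop := by
    rw [HahnSeries.orderTop_self_sub_one_pos_iff]
    constructor
    · rw [HahnSeries.orderTop_mul, hs, HahnSeries.orderTop_single (inv_ne_zero hc),
        ← HahnSeries.order_eq_orderTop_of_ne_zero hf0, ← WithTop.coe_add, add_neg_cancel]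
      rfl
    · rw [HahnSeries.leadingCoeff_mul, hs, HahnSeries.leadingCoeff_of_single,
        mul_inv_cancel₀ hc]
  obtain ⟨w, hw⟩ := BC_exists_root_one_unit m hm _ hu
  refine ⟨w * HahnSeries.single a c₀, ?_⟩
  rw [mul_pow, hw, HahnSeries.single_pow, hc₀, hs, mul_assoc, HahnSeries.single_mul_single,
    inv_mul_cancel₀ hc, nsmul_eq_mul, ← ha, neg_add_cancel]
  exact mul_one f

theorem BC_coe_mem_adjoin {K L : Type*} [Field K] [Field L] [Algebra K L]
    (F : IntermediateField K L) (t : F) (r : K⟮t⟯) : (((r : F) : L)) ∈ K⟮(t : L)⟯ := by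
  have hmap : (K⟮t⟯).map F.val = K⟮(t : L)⟯ := by
    rw [IntermediateField.adjoin_map, Set.image_singleton]
    rfl
  rw [← hmap]
  exact ⟨(r : F), r.2, rfl⟩

theorem BC_exists_coe_eq {K L : Type*} [Field K] [Field L] [Algebra K L]
    (F : IntermediateField K L) (t : F) (r : K⟮(t : L)⟯) : ∃ r' : K⟮t⟯, (((r' : F) : L)) = r := by
  have hmap : (K⟮t⟯).map F.val = K⟮(t : L)⟯ := by
    rw [IntermediateField.adjoin_map, Set.image_singleton]
    rfl
  have hr : (r : L) ∈ (K⟮t⟯).map F.val := by rw [hmap]; exact r.2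
  obtain ⟨x, hx, hxr⟩ := hr
  exact ⟨⟨x, hx⟩, hxr⟩

/-- transfer of linear independence between `F/K(t)` and `L/K(t)` -/
theorem BC_linearIndependent_coe_iff {K L : Type*} [Field K] [Field L] [Algebra K L]
    (F : IntermediateField K L) (t : F) {ι : Type*} (y : ι → F) :
    LinearIndependent K⟮t⟯ y ↔ LinearIndependent K⟮(t : L)⟯ (fun i => (y i : L)) := by
  constructor
  · intro h
    refine h.map_of_surjective_injective
      (fun r => (⟨((r : F) : L), BC_coe_mem_adjoin F t r⟩ : K⟮(t : L)⟯))
      (F.val : F →+ L) ?_ ?_ ?_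
    · intro r
      obtain ⟨r', hr'⟩ := BC_exists_coe_eq F t r
      exact ⟨r', Subtype.ext hr'⟩
    · intro m hm
      exact Subtype.ext hm
    · intro r m
      rfl
  · intro h
    rw [linearIndependent_iff'] at h ⊢
    intro s g hg i hi
    have h1 := h s (fun i => (⟨((g i : F) : L), BC_coe_mem_adjoin F t (g i)⟩ : K⟮(t : L)⟯)) ?_ i hi
    · apply Subtype.ext
      apply Subtype.ext
      exact congrArg (Subtype.val : K⟮(t : L)⟯ → L) h1
    · have h2 := congrArg (F.val) hg
      rw [map_sum, map_zero] at h2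
      exact h2

/-- roots of unity of an extension of an algebraically closed field are constants. -/
theorem BC_const_of_pow_eq_one {K L : Type*} [Field K] [IsAlgClosed K] [Field L] [Algebra K L]
    {m : ℕ} (hm : 0 < m) {w : L} (hw : w ^ m = 1) : ∃ c : K, algebraMap K L c = w := by
  have hint : IsIntegral K w := IsIntegral.of_pow hm (by rw [hw]; exact isIntegral_one)
  exact minpoly.mem_range_of_degree_eq_one K w
    (IsAlgClosed.degree_eq_one_of_irreducible K (minpoly.irreducible hint))

theorem BC_order_coeffMap {k K : Type*} [Field k] [Field K] (φ : k →+* K) (x : LaurentSeries k) :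
    (coeffMap φ x).order = x.order := by
  rcases eq_or_ne x 0 with rfl | hx
  · simp
  have hx' : coeffMap φ x ≠ 0 := by
    intro h
    exact hx ((coeffMap φ).injective (by rw [h, map_zero]))
  apply le_antisymm
  · refine HahnSeries.order_le_of_coeff_ne_zero ?_
    rw [coeffMap_coeff]
    simpa using (mt HahnSeries.coeff_order_eq_zero.mp hx)
  · refine HahnSeries.order_le_of_coeff_ne_zero ?_
    have := (mt HahnSeries.coeff_order_eq_zero.mp hx')
    rw [coeffMap_coeff] at this
    simpa using this

theorem BC_coeffMap_coeffEmb (z : LaurentSeries ℚ) :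
    coeffMap iotaC (coeffEmb Kb z) = coeffEmb ℂ z := by
  rw [coeffEmb, coeffMap_coeffMap]
  exact coeffMap_congr (Subsingleton.elim _ _) z

theorem BC_coeffMap_algebraMap (c : Kb) :
    coeffMap iotaC (algebraMap Kb (LaurentSeries Kb) c)
      = algebraMap ℂ (LaurentSeries ℂ) (iotaC c) := by
  rw [algebraMap_laurentSeries_eq_single, algebraMap_laurentSeries_eq_single, coeffMap_single]

variable (N : ℕ) [NeZero N]

theorem coeffMap_mem_FC {x : LaurentSeries Kb} (hx : x ∈ modularFunctionFieldBar N) :
    coeffMap iotaC x ∈ laurentBaseChange ℂ (modularFunctionFieldFull N) := by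
  rw [mem_laurentBaseChange_iff] at hx
  induction hx using Subfield.closure_induction with
  | mem y hy =>
      rcases hy with ⟨a, rfl⟩ | ⟨z, hz, rfl⟩
      · rw [BC_coeffMap_algebraMap]
        exact (laurentBaseChange ℂ (modularFunctionFieldFull N)).algebraMap_mem _
      · rw [BC_coeffMap_coeffEmb]
        exact coeffEmb_mem_laurentBaseChange ℂ hz
  | one => simp
  | add x y _ _ hx hy => simpa using add_mem hx hy
  | neg x _ hx => simpa using neg_mem hx
  | inv x _ hx => simpa using inv_mem hx
  | mul x y _ _ hx hy => simpa using mul_mem hx hy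

/-- base change of functions. -/
def bc : FN N →+* FC N where
  toFun f := ⟨coeffMap iotaC (f : LaurentSeries Kb), coeffMap_mem_FC N f.2⟩
  map_one' := Subtype.ext (map_one _)
  map_mul' _ _ := Subtype.ext (map_mul _ _ _)
  map_zero' := Subtype.ext (map_zero _)
  map_add' _ _ := Subtype.ext (map_add _ _ _)

theorem coe_bc (f : FN N) : (bc N f : LaurentSeries ℂ) = coeffMap iotaC (f : LaurentSeries Kb) := rfl

theorem bc_algebraMap (c : Kb) :
    bc N (algebraMap Kb (FN N) c) = algebraMap ℂ (FC N) (algebraMap Kb ℂ c) := by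
  apply Subtype.ext
  rw [coe_bc]
  exact BC_coeffMap_algebraMap c

theorem bc_jF (d : Dv N) : bc N (jF N d.1 d.2) = jFC N d.1 d.2 := by
  apply Subtype.ext
  rw [coe_bc]
  exact BC_coeffMap_coeffEmb _

theorem mem_FN_of_coeffMap_mem (x : LaurentSeries Kb)
    (hx : coeffMap iotaC x ∈ laurentBaseChange ℂ (modularFunctionFieldFull N)) :
    x ∈ modularFunctionFieldBar N := by
  by_contra hxF
  have hfd1 := finiteDimensional_FN N
  have hfd2 := finiteDimensional_FC N
  have hfree : Module.Free Kb⟮jN N⟯ (FN N) := Module.Free.of_divisionRing _ _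
  let b := Module.finBasis Kb⟮jN N⟯ (FN N)
  have hb : LinearIndependent Kb⟮((jN N : FN N) : LaurentSeries Kb)⟯
      (fun i => ((b i : FN N) : LaurentSeries Kb)) :=
    (BC_linearIndependent_coe_iff (modularFunctionFieldBar N) (jN N) b).1 b.linearIndependent
  have hle : Kb⟮((jN N : FN N) : LaurentSeries Kb)⟯ ≤ modularFunctionFieldBar N := by
    rw [IntermediateField.adjoin_le_iff]
    rintro _ rfl
    exact (jN N).2
  have hsub : ∀ z : LaurentSeries Kb, z ∈ Submodule.span Kb⟮((jN N : FN N) : LaurentSeries Kb)⟯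
      (Set.range fun i => ((b i : FN N) : LaurentSeries Kb)) → z ∈ modularFunctionFieldBar N := by
    intro z hmem
    induction hmem using Submodule.span_induction with
    | mem z hz =>
      obtain ⟨i, rfl⟩ := hz
      exact (b i).2
    | zero => exact zero_mem _
    | add z w _ _ hz hw => exact add_mem hz hw
    | smul c z _ hz => exact mul_mem (hle c.2) hz
  have hspan : x ∉ Submodule.span Kb⟮((jN N : FN N) : LaurentSeries Kb)⟯
      (Set.range fun i => ((b i : FN N) : LaurentSeries Kb)) := fun hmem => hxF (hsub x hmem)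
  have hy := hb.option hspan
  have hz := S28.linearIndependent_coeffMap iotaC _ _ hy
  have hj : coeffMap iotaC ((jN N : FN N) : LaurentSeries Kb) = ((jC N : FC N) : LaurentSeries ℂ) :=
    congrArg Subtype.val (bc_jF N ⟨1, one_dvd N⟩)
  rw [hj] at hz
  have hmem : ∀ o : Option (Fin (Module.finrank Kb⟮jN N⟯ (FN N))),
      coeffMap iotaC (Option.casesOn' o x fun i => ((b i : FN N) : LaurentSeries Kb))
        ∈ laurentBaseChange ℂ (modularFunctionFieldFull N) := by
    intro o
    cases o with
    | none => exact hx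
    | some i => exact coeffMap_mem_FC N (b i).2
  have hz' : LinearIndependent ℂ⟮jC N⟯ (fun o => (⟨_, hmem o⟩ : FC N)) :=
    (BC_linearIndependent_coe_iff _ (jC N) _).2 hz
  have hcard := hz'.fintype_card_le_finrank
  rw [finrank_FC, Fintype.card_option, Fintype.card_fin, finrank_FN] at hcard
  omega

theorem exists_root_of_bc (m : ℕ) (hm : 0 < m) (f : FN N) (h : FC N) (hfh : bc N f = h ^ m) :
    ∃ h₀ : FN N, f = h₀ ^ m := by
  have h1 : coeffMap iotaC (f : LaurentSeries Kb) = (h : LaurentSeries ℂ) ^ m :=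
    congrArg Subtype.val hfh
  have hord : (m : ℤ) ∣ (f : LaurentSeries Kb).order := by
    rw [← BC_order_coeffMap iotaC, h1, HahnSeries.order_pow, nsmul_eq_mul]
    exact dvd_mul_right _ _
  obtain ⟨w, hw⟩ := BC_exists_root m hm (f : LaurentSeries Kb) hord
  have h2 : (coeffMap iotaC w) ^ m = (h : LaurentSeries ℂ) ^ m := by rw [← map_pow, hw, h1]
  have h3 : coeffMap iotaC w ∈ laurentBaseChange ℂ (modularFunctionFieldFull N) := by
    rcases eq_or_ne (h : LaurentSeries ℂ) 0 with h0 | h0
    · rw [h0, zero_pow hm.ne', pow_eq_zero_iff hm.ne'] at h2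
      rw [h2]
      exact zero_mem _
    · have h4 : (coeffMap iotaC w / (h : LaurentSeries ℂ)) ^ m = 1 := by
        rw [div_pow, h2, div_self (pow_ne_zero _ h0)]
      obtain ⟨c, hc⟩ := BC_const_of_pow_eq_one (K := ℂ) hm h4
      have h5 : coeffMap iotaC w = algebraMap ℂ (LaurentSeries ℂ) c * (h : LaurentSeries ℂ) := by
        rw [hc, div_mul_cancel₀ _ h0]
      rw [h5]
      exact mul_mem (IntermediateField.algebraMap_mem _ _) h.2
  exact ⟨⟨w, mem_FN_of_coeffMap_mem N w h3⟩, Subtype.ext hw.symm⟩

/-- the model over `ℂ`. -/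
def modelC : Model N ℂ (FC N) where
  φ := (toMer N : FC N →+* Mer)
  φ_alg c := (toMer N).commutes c
  j := jC N
  φ_j := toMer_jC N
  tr := transcendental_jC N
  fin := finiteDimensional_FC N
  deg := finrank_FC N
  inv := cmp_toMer N
  sep := mem_Gamma0_of_cmp N
  cusp := cmp_toMer_mem_MerCusp N

/-- the model over `ℚ̄`. -/
def modelB : Model N Kb (FN N) where
  φ := (toMer N : FC N →+* Mer).comp (bc N)
  φ_alg c := by
    rw [RingHom.comp_apply, bc_algebraMap]
    exact (toMer N).commutes _
  j := jN N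
  φ_j := by
    rw [RingHom.comp_apply]
    have h1 : bc N (jN N) = jC N := bc_jF N ⟨1, one_dvd N⟩
    rw [h1]
    exact toMer_jC N
  tr := transcendental_jN N
  fin := finiteDimensional_FN N
  deg := finrank_FN N
  inv γ f := cmp_toMer N γ (bc N f)
  sep g hg := by
    apply mem_Gamma0_of_cmp N g
    have h1 : (cmp (slp g)).comp (toMer N) = toMer N := by
      apply algHom_ext_FC N
      intro d
      rw [← bc_jF]
      exact hg (jF N d.1 d.2)
    intro f
    exact AlgHom.congr_fun h1 f
  cusp g f := cmp_toMer_mem_MerCusp N g (bc N f)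

end

end Fermat.Agent.ES.An
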