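import Fermat.Agent.ES.An.Defs
import Fermat.Agent.ES.Defs

/-! # ES/An-Basic : elementary API for `Mer`, `cmp`, `tay`, `ordAt`, `MerCusp`, `lau`, `HasLau`. -/

set_option autoImplicit false

open AlgebraicCurve ModularCurve UpperHalfPlane
open scoped MatrixGroups IntermediateField Manifold ModularForm

namespace Fermat.Agent.ES.An

open Fermat.Agent.S24

noncomputable section

theorem exists_div (u : Mer) :
    ∃ a b : Hol, b ≠ 0 ∧ u = algebraMap Hol Mer a / algebraMap Hol Mer b := by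
  obtain ⟨a, b, hb, h⟩ := IsFractionRing.div_surjective (A := Hol) u
  exact ⟨a, b, nonZeroDivisors.ne_zero hb, h.symm⟩

theorem cmp_div (α : GLp) (a b : Hol) :
    cmp α (algebraMap Hol Mer a / algebraMap Hol Mer b)
      = algebraMap Hol Mer (cmpHol α a) / algebraMap Hol Mer (cmpHol α b) := by
  rw [map_div₀, cmp_algebraMap, cmp_algebraMap]

theorem tay_div (τ : ℍ) (a b : Hol) :
    tay τ (algebraMap Hol Mer a / algebraMap Hol Mer b) = taylorAt τ a / taylorAt τ b := by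
  rw [map_div₀, tay_algebraMap, tay_algebraMap]

theorem cmpHol_one (f : Hol) : cmpHol 1 f = f := by
  apply Subtype.ext
  funext τ
  rw [cmpHol_apply, one_smul]

theorem cmpHol_mul (α β : GLp) (f : Hol) : cmpHol (α * β) f = cmpHol β (cmpHol α f) := by
  apply Subtype.ext
  funext τ
  rw [cmpHol_apply, cmpHol_apply, cmpHol_apply, mul_smul]

theorem cmp_one (u : Mer) : cmp 1 u = u := by
  obtain ⟨a, b, -, rfl⟩ := exists_div u
  rw [cmp_div, cmpHol_one, cmpHol_one]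

/-- `(u ∘ α) ∘ β = u ∘ (α β)`. -/
theorem cmp_mul (α β : GLp) (u : Mer) : cmp (α * β) u = cmp β (cmp α u) := by
  obtain ⟨a, b, -, rfl⟩ := exists_div u
  rw [cmp_div, cmp_div, cmp_div, cmpHol_mul, cmpHol_mul]

theorem cmp_cmp_inv (α : GLp) (u : Mer) : cmp α (cmp α⁻¹ u) = u := by
  rw [← cmp_mul, inv_mul_cancel, cmp_one]

theorem cmp_inv_cmp (α : GLp) (u : Mer) : cmp α⁻¹ (cmp α u) = u := by
  rw [← cmp_mul, mul_inv_cancel, cmp_one]

theorem tay_ne_zero (τ : ℍ) {u : Mer} (hu : u ≠ 0) : tay τ u ≠ 0 :=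
  (map_ne_zero (tay τ)).mpr hu

theorem ordAt_zero (τ : ℍ) : ordAt τ 0 = 0 := by
  unfold ordAt
  rw [map_zero, HahnSeries.order_zero]

theorem ordAt_mul (τ : ℍ) {u v : Mer} (hu : u ≠ 0) (hv : v ≠ 0) :
    ordAt τ (u * v) = ordAt τ u + ordAt τ v := by
  unfold ordAt
  rw [map_mul, HahnSeries.order_mul (tay_ne_zero τ hu) (tay_ne_zero τ hv)]

theorem ordAt_pow (τ : ℍ) (u : Mer) (n : ℕ) : ordAt τ (u ^ n) = n * ordAt τ u := by
  unfold ordAt
  rw [map_pow, HahnSeries.order_pow, nsmul_eq_mul]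

theorem ordAt_inv (τ : ℍ) (u : Mer) : ordAt τ u⁻¹ = - ordAt τ u := by
  by_cases hu : u = 0
  · rw [hu, inv_zero, ordAt_zero, neg_zero]
  · unfold ordAt
    rw [map_inv₀, Packages.order_inv_eq _ (tay_ne_zero τ hu)]

theorem ordAt_algebraMap_nonneg (τ : ℍ) (f : Hol) : 0 ≤ ordAt τ (algebraMap Hol Mer f) := by
  unfold ordAt
  rw [tay_algebraMap]
  by_cases h0 : taylorAt τ f = 0
  · rw [h0, HahnSeries.order_zero]
  · by_contra hlt
    apply h0
    rw [← HahnSeries.coeff_order_eq_zero]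
    rw [taylorAt_apply] at hlt ⊢
    rw [PowerSeries.coeff_coe, if_pos (not_le.mp hlt)]

theorem ordAt_const (τ : ℍ) (c : ℂ) : ordAt τ (algebraMap ℂ Mer c) = 0 := by
  unfold ordAt
  rw [AlgHom.commutes, HahnSeries.algebraMap_apply']
  have : algebraMap ℂ (PowerSeries ℂ) c = PowerSeries.C c := rfl
  rw [this, HahnSeries.ofPowerSeries_C]
  exact HahnSeries.order_C

theorem min_ordAt_le_add (τ : ℍ) {u v : Mer} (huv : u + v ≠ 0) :
    min (ordAt τ u) (ordAt τ v) ≤ ordAt τ (u + v) := by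
  unfold ordAt
  rw [map_add]
  apply HahnSeries.min_order_le_order_add
  rw [← map_add]
  exact tay_ne_zero τ huv

theorem cmpHol_slp_inv (g : SL(2, ℤ)) (f : Hol) :
    cmpHol (slp g⁻¹) f = ⟨_, compInv_mem_Hol g f⟩ := rfl

/-- The expansion at a fixed point, in closed form. -/
theorem tay_cmp_fix_twist (τ₀ : ℍ) (g : SL(2, ℤ)) (hg : g • τ₀ = τ₀) (u : Mer) :
    tay τ₀ (cmp (slp g⁻¹) u)
      = twist (Units.mk0 (denom (g : GL (Fin 2) ℝ) τ₀ ^ 2)
          (pow_ne_zero 2 (denom_ne_zero _ τ₀))) (tay τ₀ u) := by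
  have key : ∀ f : Hol, taylorAt τ₀ (cmpHol (slp g⁻¹) f)
      = twist (Units.mk0 (denom (g : GL (Fin 2) ℝ) τ₀ ^ 2)
          (pow_ne_zero 2 (denom_ne_zero _ τ₀))) (taylorAt τ₀ f) := by
    intro f
    ext k
    rw [cmpHol_slp_inv, taylorAt_compInv τ₀ g hg f k, twist_coeff, Units.val_zpow_eq_zpow_val,
      Units.val_mk0]
  obtain ⟨a, b, -, rfl⟩ := exists_div u
  rw [cmp_div, tay_div, tay_div, key, key, map_div₀]

/-- Behaviour of the expansion at a fixed point (extends `S24.taylorAt_compInv` to `Mer`). -/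
theorem tay_cmp_fix (τ₀ : ℍ) (g : SL(2, ℤ)) (hg : g • τ₀ = τ₀) (u : Mer) (k : ℤ) :
    (tay τ₀ (cmp (slp g⁻¹) u)).coeff k
      = (denom (g : GL (Fin 2) ℝ) τ₀ ^ 2) ^ k * (tay τ₀ u).coeff k := by
  rw [tay_cmp_fix_twist τ₀ g hg u, twist_coeff, Units.val_zpow_eq_zpow_val, Units.val_mk0]

theorem exists_divC (h : ℕ) [NeZero h] (v : MerC h) :
    ∃ a b : HolCusp h, b ≠ 0 ∧
      v = algebraMap (HolCusp h) (MerC h) a / algebraMap (HolCusp h) (MerC h) b := by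
  obtain ⟨a, b, hb, hv⟩ := IsFractionRing.div_surjective (A := HolCusp h) v
  exact ⟨a, b, nonZeroDivisors.ne_zero hb, hv.symm⟩

theorem cuspToMer_div (h : ℕ) [NeZero h] (a b : HolCusp h) :
    cuspToMer h (algebraMap (HolCusp h) (MerC h) a / algebraMap (HolCusp h) (MerC h) b)
      = algebraMap Hol Mer (cuspIncl h a) / algebraMap Hol Mer (cuspIncl h b) := by
  rw [map_div₀, cuspToMer_algebraMap, cuspToMer_algebraMap]

theorem lauC_div (h : ℕ) [NeZero h] (a b : HolCusp h) :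
    lauC h (algebraMap (HolCusp h) (MerC h) a / algebraMap (HolCusp h) (MerC h) b)
      = laurent h a / laurent h b := by
  rw [map_div₀, lauC_algebraMap, lauC_algebraMap]

theorem mem_MerCusp_iff_exists (h : ℕ) [NeZero h] (u : Mer) :
    u ∈ MerCusp h ↔ ∃ v : MerC h, cuspToMer h v = u := by
  unfold MerCusp
  exact AlgHom.mem_fieldRange

theorem mem_MerCusp_iff (h : ℕ) [NeZero h] (u : Mer) :
    u ∈ MerCusp h ↔ ∃ a b : HolCusp h, b ≠ 0 ∧
      u = algebraMap Hol Mer (cuspIncl h a) / algebraMap Hol Mer (cuspIncl h b) := by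
  rw [mem_MerCusp_iff_exists]
  constructor
  · rintro ⟨v, rfl⟩
    obtain ⟨a, b, hb, rfl⟩ := exists_divC h v
    exact ⟨a, b, hb, cuspToMer_div h a b⟩
  · rintro ⟨a, b, -, rfl⟩
    exact ⟨_, cuspToMer_div h a b⟩

theorem lau_cuspToMer (h : ℕ) [NeZero h] (v : MerC h) (hv : cuspToMer h v ∈ MerCusp h) :
    lau h ⟨cuspToMer h v, hv⟩ = lauC h v := by
  show lauC h ((AlgEquiv.ofInjectiveField (cuspToMer h)).symm ⟨cuspToMer h v, hv⟩) = lauC h v
  congr 1
  rw [AlgEquiv.symm_apply_eq]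
  rfl

theorem lau_div (h : ℕ) [NeZero h] (a b : HolCusp h) (hb : b ≠ 0) (u : MerCusp h)
    (hu : (u : Mer) = algebraMap Hol Mer (cuspIncl h a) / algebraMap Hol Mer (cuspIncl h b)) :
    lau h u = laurent h a / laurent h b := by
  have _ := hb
  have h1 : (u : Mer) = cuspToMer h
      (algebraMap (HolCusp h) (MerC h) a / algebraMap (HolCusp h) (MerC h) b) := by
    rw [hu, cuspToMer_div]
  have h2 : u = ⟨cuspToMer h
      (algebraMap (HolCusp h) (MerC h) a / algebraMap (HolCusp h) (MerC h) b),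
      h1 ▸ u.2⟩ := Subtype.ext h1
  rw [h2, lau_cuspToMer, lauC_div]

theorem hasLau_iff (h : ℕ) [NeZero h] (u : Mer) (x : LaurentSeries ℂ) :
    HasLau h u x ↔ ∃ hu : u ∈ MerCusp h, lau h ⟨u, hu⟩ = x := by
  constructor
  · rintro ⟨v, rfl, rfl⟩
    have hv : cuspToMer h v ∈ MerCusp h := (mem_MerCusp_iff_exists h _).mpr ⟨v, rfl⟩
    exact ⟨hv, lau_cuspToMer h v hv⟩
  · rintro ⟨hu, rfl⟩
    obtain ⟨v, rfl⟩ := (mem_MerCusp_iff_exists h u).mp hu
    exact ⟨v, rfl, (lau_cuspToMer h v hu).symm⟩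

theorem HasLau.unique {h : ℕ} [NeZero h] {u : Mer} {x y : LaurentSeries ℂ}
    (hx : HasLau h u x) (hy : HasLau h u y) : x = y := by
  obtain ⟨v, hv, rfl⟩ := hx
  obtain ⟨w, hw, rfl⟩ := hy
  rw [(cuspToMer h).toRingHom.injective (hv.trans hw.symm)]

/-- the `q`-expansion principle. -/
theorem HasLau.eq_of_eq {h : ℕ} [NeZero h] {u v : Mer} {x : LaurentSeries ℂ}
    (hu : HasLau h u x) (hv : HasLau h v x) : u = v := by
  obtain ⟨a, rfl, ha⟩ := hu
  obtain ⟨b, rfl, hb⟩ := hv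
  rw [(lauC h).toRingHom.injective (ha.trans hb.symm)]

theorem HasLau.mul {h : ℕ} [NeZero h] {u v : Mer} {x y : LaurentSeries ℂ}
    (hu : HasLau h u x) (hv : HasLau h v y) : HasLau h (u * v) (x * y) := by
  obtain ⟨a, rfl, rfl⟩ := hu
  obtain ⟨b, rfl, rfl⟩ := hv
  exact ⟨a * b, map_mul _ _ _, map_mul _ _ _⟩

theorem HasLau.inv {h : ℕ} [NeZero h] {u : Mer} {x : LaurentSeries ℂ}
    (hu : HasLau h u x) : HasLau h u⁻¹ x⁻¹ := by
  obtain ⟨a, rfl, rfl⟩ := hu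
  exact ⟨a⁻¹, map_inv₀ _ _, map_inv₀ _ _⟩

theorem HasLau.add {h : ℕ} [NeZero h] {u v : Mer} {x y : LaurentSeries ℂ}
    (hu : HasLau h u x) (hv : HasLau h v y) : HasLau h (u + v) (x + y) := by
  obtain ⟨a, rfl, rfl⟩ := hu
  obtain ⟨b, rfl, rfl⟩ := hv
  exact ⟨a + b, map_add _ _ _, map_add _ _ _⟩

theorem HasLau.div {h : ℕ} [NeZero h] {u v : Mer} {x y : LaurentSeries ℂ}
    (hu : HasLau h u x) (hv : HasLau h v y) : HasLau h (u / v) (x / y) := by
  obtain ⟨a, rfl, rfl⟩ := hu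
  obtain ⟨b, rfl, rfl⟩ := hv
  exact ⟨a / b, map_div₀ _ _ _, map_div₀ _ _ _⟩

theorem HasLau.pow {h : ℕ} [NeZero h] {u : Mer} {x : LaurentSeries ℂ}
    (hu : HasLau h u x) (n : ℕ) : HasLau h (u ^ n) (x ^ n) := by
  obtain ⟨a, rfl, rfl⟩ := hu
  exact ⟨a ^ n, map_pow _ _ _, map_pow _ _ _⟩

theorem hasLau_const (h : ℕ) [NeZero h] (c : ℂ) :
    HasLau h (algebraMap ℂ Mer c) (algebraMap ℂ (LaurentSeries ℂ) c) :=
  ⟨algebraMap ℂ (MerC h) c, AlgHom.commutes _ _, AlgHom.commutes _ _⟩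

theorem hasLau_of_holCusp (h : ℕ) [NeZero h] (f : HolCusp h) :
    HasLau h (algebraMap Hol Mer (cuspIncl h f)) (laurent h f) :=
  ⟨algebraMap (HolCusp h) (MerC h) f, cuspToMer_algebraMap h f, lauC_algebraMap h f⟩

theorem HasLau.mem {h : ℕ} [NeZero h] {u : Mer} {x : LaurentSeries ℂ}
    (hu : HasLau h u x) : u ∈ MerCusp h :=
  ((hasLau_iff h u x).mp hu).1

theorem hasLau_lau (h : ℕ) [NeZero h] (u : MerCusp h) : HasLau h (u : Mer) (lau h u) :=
  (hasLau_iff h _ _).mpr ⟨u.2, rfl⟩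

/-- translation by `1` on `HolCusp h`. -/
def trC (h : ℕ) [NeZero h] (f : HolCusp h) : HolCusp h := ⟨_, translate_mem h f⟩

theorem trC_apply (h : ℕ) [NeZero h] (f : HolCusp h) (τ : ℍ) :
    (trC h f : ℍ → ℂ) τ = (f : ℍ → ℂ) ((1 : ℝ) +ᵥ τ) := rfl

theorem trC_iterate_apply (h : ℕ) [NeZero h] (n : ℕ) (f : HolCusp h) (τ : ℍ) :
    (((trC h)^[n] f : HolCusp h) : ℍ → ℂ) τ = (f : ℍ → ℂ) ((n : ℝ) +ᵥ τ) := by
  induction n generalizing f with
  | zero => simp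
  | succ n ih =>
    rw [Function.iterate_succ_apply, ih, trC_apply, vadd_vadd]
    have : (1 : ℝ) + (n : ℝ) = ((n + 1 : ℕ) : ℝ) := by
      push_cast
      ring
    rw [this]

theorem compInv_T_mem (h : ℕ) [NeZero h] (f : HolCusp h) :
    compInv ModularGroup.T (f : ℍ → ℂ) ∈ HolCusp h := by
  have : compInv ModularGroup.T (f : ℍ → ℂ) = (((trC h)^[h - 1] f : HolCusp h) : ℍ → ℂ) := by
    funext τ
    rw [trC_iterate_apply]
    show (f : ℍ → ℂ) (ModularGroup.T⁻¹ • τ) = _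
    have h1 : 1 ≤ h := Nat.one_le_iff_ne_zero.mpr (NeZero.ne h)
    have h2 : (((h - 1 : ℕ) : ℝ)) +ᵥ τ = (h : ℝ) +ᵥ (ModularGroup.T⁻¹ • τ) := by
      have h3 : τ = (1 : ℝ) +ᵥ (ModularGroup.T⁻¹ • τ) := by
        rw [← UpperHalfPlane.modular_T_smul, smul_inv_smul]
      conv_lhs => rw [h3]
      rw [vadd_vadd]
      congr 1
      push_cast [h1]
      ring
    rw [h2]
    exact (Laurent.vadd_of_periodic f.2.2.1 _).symm
  rw [this]
  exact Subtype.property _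

/-- translation by `-1` on `HolCusp h`. -/
def trInvC (h : ℕ) [NeZero h] (f : HolCusp h) : HolCusp h := ⟨_, compInv_T_mem h f⟩

theorem cmpHol_T (h : ℕ) [NeZero h] (f : HolCusp h) :
    cmpHol (slp ModularGroup.T) (cuspIncl h f) = cuspIncl h (trC h f) := by
  apply Subtype.ext
  funext τ
  show (f : ℍ → ℂ) (ModularGroup.T • τ) = (f : ℍ → ℂ) ((1 : ℝ) +ᵥ τ)
  rw [UpperHalfPlane.modular_T_smul]

theorem cmpHol_T_inv (h : ℕ) [NeZero h] (f : HolCusp h) :
    cmpHol (slp ModularGroup.T⁻¹) (cuspIncl h f) = cuspIncl h (trInvC h f) := rfl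

theorem trC_ne_zero (h : ℕ) [NeZero h] {f : HolCusp h} (hf : f ≠ 0) : trC h f ≠ 0 := by
  intro h0
  apply hf
  apply cuspIncl_injective h
  apply cmpHol_injective (slp ModularGroup.T)
  rw [cmpHol_T, h0, map_zero, map_zero]

theorem trInvC_ne_zero (h : ℕ) [NeZero h] {f : HolCusp h} (hf : f ≠ 0) : trInvC h f ≠ 0 := by
  intro h0
  apply hf
  apply cuspIncl_injective h
  apply cmpHol_injective (slp ModularGroup.T⁻¹)
  rw [cmpHol_T_inv, h0, map_zero, map_zero]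

/-- the root of unity `exp(2πi/h)` as a unit. -/
def zetaU (h : ℕ) : ℂˣ := Units.mk0 (Complex.exp (2 * Real.pi * Complex.I / h)) (Complex.exp_ne_zero _)

theorem laurent_trInvC (h : ℕ) [NeZero h] (f : HolCusp h) :
    laurent h (trInvC h f) = twist (zetaU h)⁻¹ (laurent h f) := by
  ext k
  rw [twist_coeff, Units.val_zpow_eq_zpow_val, Units.val_inv_eq_inv_val]
  exact Packages.cusp_coeff h f (compInv_T_mem h f) k

theorem laurent_trC (h : ℕ) [NeZero h] (f : HolCusp h) :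
    laurent h (trC h f) = twist (zetaU h) (laurent h f) := by
  ext k
  rw [twist_coeff, Units.val_zpow_eq_zpow_val]
  exact laurent_translate h f k

theorem HasLau.cmp_T_inv {h : ℕ} [NeZero h] {u : Mer} {x : LaurentSeries ℂ}
    (hu : HasLau h u x) :
    HasLau h (cmp (slp ModularGroup.T⁻¹) u) (twist (zetaU h)⁻¹ x) := by
  obtain ⟨v, rfl, rfl⟩ := hu
  obtain ⟨a, b, hb, rfl⟩ := exists_divC h v
  rw [cuspToMer_div, cmp_div, cmpHol_T_inv, cmpHol_T_inv, lauC_div, map_div₀, ← laurent_trInvC,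
    ← laurent_trInvC]
  exact (hasLau_of_holCusp h _).div (hasLau_of_holCusp h _)

theorem HasLau.cmp_T {h : ℕ} [NeZero h] {u : Mer} {x : LaurentSeries ℂ}
    (hu : HasLau h u x) :
    HasLau h (cmp (slp ModularGroup.T) u) (twist (zetaU h) x) := by
  obtain ⟨v, rfl, rfl⟩ := hu
  obtain ⟨a, b, hb, rfl⟩ := exists_divC h v
  rw [cuspToMer_div, cmp_div, cmpHol_T, cmpHol_T, lauC_div, map_div₀, ← laurent_trC,
    ← laurent_trC]
  exact (hasLau_of_holCusp h _).div (hasLau_of_holCusp h _)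

/-- Translation by `T` (extends `S24.cusp_coeff` to `MerCusp`). -/
theorem lau_cmp_T (h : ℕ) [NeZero h] (u : MerCusp h)
    (hu : cmp (slp ModularGroup.T⁻¹) (u : Mer) ∈ MerCusp h) (k : ℤ) :
    (lau h ⟨_, hu⟩).coeff k
      = ((Complex.exp (2 * Real.pi * Complex.I / h))⁻¹) ^ k * (lau h u).coeff k := by
  have h1 := (hasLau_lau h u).cmp_T_inv
  have h2 := hasLau_lau h ⟨_, hu⟩
  rw [h2.unique h1, twist_coeff, Units.val_zpow_eq_zpow_val, Units.val_inv_eq_inv_val]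
  rfl

theorem cmp_T_mem_MerCusp (h : ℕ) [NeZero h] (u : Mer) (hu : u ∈ MerCusp h) (n : ℤ) :
    cmp (slp (ModularGroup.T ^ n)) u ∈ MerCusp h := by
  induction n using Int.induction_on with
  | zero => rw [zpow_zero, map_one, cmp_one]; exact hu
  | succ n ih =>
    rw [zpow_add, zpow_one, map_mul, cmp_mul]
    exact (hasLau_lau h ⟨_, ih⟩).cmp_T.mem
  | pred n ih =>
    rw [zpow_sub, zpow_one, map_mul, cmp_mul]
    exact (hasLau_lau h ⟨_, ih⟩).cmp_T_inv.mem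

end

end Fermat.Agent.ES.An
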