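import Fermat.Agent.ES.An.Defs

/-! # ES/An-HolCrit : a meromorphic function without poles is holomorphic.

Proof: `u = a / b`; at every `τ` the analytic order of `a` is `≥` that of `b`, so `a / b` extends
analytically (`AnalyticAt` factorisations `a = (z-τ)^n a₁`, `b = (z-τ)^k b₁`, `b₁ τ ≠ 0`); define the
quotient function by the limit (e.g. `limUnder` or via `MeromorphicAt`/`toMeromorphicNFOn`). -/

set_option autoImplicit false

open AlgebraicCurve ModularCurve UpperHalfPlane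
open scoped MatrixGroups IntermediateField Manifold ModularForm

namespace Fermat.Agent.ES.An

open Fermat.Agent.S24

noncomputable section

namespace HolCrit

open Filter Topology

/-- local division of analytic functions. -/
theorem exists_local_quot {A B : ℂ → ℂ} {x : ℂ} (hA : AnalyticAt ℂ A x) (hB : AnalyticAt ℂ B x)
    (hfin : analyticOrderAt B x ≠ ⊤) (hle : analyticOrderAt B x ≤ analyticOrderAt A x) :
    ∃ G : ℂ → ℂ, AnalyticAt ℂ G x ∧ ∀ᶠ z in 𝓝 x, G z * B z = A z := by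
  obtain ⟨k, hk⟩ := ENat.ne_top_iff_exists.1 hfin
  obtain ⟨B₁, hB₁, hB₁x, hBeq⟩ := (hB.analyticOrderAt_eq_natCast (n := k)).1 hk.symm
  rw [← hk] at hle
  obtain ⟨A₁, hA₁, hAeq⟩ := (natCast_le_analyticOrderAt hA).1 hle
  refine ⟨fun z => A₁ z / B₁ z, hA₁.div hB₁ hB₁x, ?_⟩
  filter_upwards [hBeq, hAeq, hB₁.continuousAt.eventually_ne hB₁x] with z h1 h2 h3
  rw [h1, h2, smul_eq_mul, smul_eq_mul]
  field_simp

/-- global division of analytic functions on an open set. -/
theorem exists_global_quot {U : Set ℂ} (hU : IsOpen U) {A B : ℂ → ℂ} (hA : AnalyticOnNhd ℂ A U)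
    (hB : AnalyticOnNhd ℂ B U) (hfin : ∀ x ∈ U, analyticOrderAt B x ≠ ⊤)
    (hle : ∀ x ∈ U, analyticOrderAt B x ≤ analyticOrderAt A x) :
    ∃ g : ℂ → ℂ, AnalyticOnNhd ℂ g U ∧ ∀ x ∈ U, g x * B x = A x := by
  classical
  have h1 : ∀ x : ℂ, ∃ G : ℂ → ℂ, x ∈ U → AnalyticAt ℂ G x ∧ ∀ᶠ z in 𝓝 x, G z * B z = A z := by
    intro x
    by_cases hx : x ∈ U
    · obtain ⟨G, hG⟩ := exists_local_quot (hA x hx) (hB x hx) (hfin x hx) (hle x hx)
      exact ⟨G, fun _ => hG⟩
    · exact ⟨0, fun h => absurd h hx⟩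
  choose G hG using h1
  have hself : ∀ x ∈ U, G x x * B x = A x := fun x hx => (hG x hx).2.self_of_nhds
  refine ⟨fun x => G x x, fun x hx => ?_, hself⟩
  have hne : ∀ᶠ z in 𝓝[≠] x, B z ≠ 0 := by
    rcases (hB x hx).eventually_eq_zero_or_eventually_ne_zero with h | h
    · exact absurd (analyticOrderAt_eq_top.2 h) (hfin x hx)
    · exact h
  rw [eventually_nhdsWithin_iff] at hne
  have hev : (fun y => G y y) =ᶠ[𝓝 x] G x := by
    filter_upwards [hne, (hG x hx).2, hU.mem_nhds hx] with y h1 h2 h3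
    by_cases hy : y = x
    · rw [hy]
    · exact mul_right_cancel₀ (h1 hy) ((hself y h3).trans h2.symm)
  exact (hG x hx).1.congr hev.symm

theorem analyticOnNhd_comp_ofComplex (f : Hol) :
    AnalyticOnNhd ℂ ((f : ℍ → ℂ) ∘ ofComplex) {z : ℂ | 0 < z.im} :=
  (UpperHalfPlane.mdifferentiable_iff.mp f.2).analyticOnNhd isOpen_upperHalfPlaneSet

/-- a nonzero holomorphic function has finite order everywhere. -/
theorem order_ne_top {f : Hol} (hf : f ≠ 0) {x : ℂ} (hx : 0 < x.im) :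
    analyticOrderAt ((f : ℍ → ℂ) ∘ ofComplex) x ≠ ⊤ := by
  intro h
  rw [analyticOrderAt_eq_top] at h
  have hconn : IsPreconnected {z : ℂ | 0 < z.im} := (convex_halfSpace_im_gt 0).isPreconnected
  have h3 := (analyticOnNhd_comp_ofComplex f).eqOn_zero_of_preconnected_of_eventuallyEq_zero
    hconn hx h
  apply hf
  ext τ
  have := h3 τ.im_pos
  simpa using this

end HolCrit

open HolCrit in
theorem exists_Hol_of_ordAt_nonneg (u : Mer) (h : ∀ τ : ℍ, 0 ≤ ordAt τ u) :
    ∃ f : Hol, algebraMap Hol Mer f = u := by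
  obtain ⟨a, b, hb, rfl⟩ := IsFractionRing.div_surjective (A := Hol) u
  have hb0 : b ≠ 0 := nonZeroDivisors.ne_zero hb
  by_cases ha0 : a = 0
  · exact ⟨0, by rw [ha0, map_zero, zero_div]⟩
  have hle : ∀ x ∈ {z : ℂ | 0 < z.im}, analyticOrderAt ((b : ℍ → ℂ) ∘ ofComplex) x ≤
      analyticOrderAt ((a : ℍ → ℂ) ∘ ofComplex) x := by
    intro x hx
    set τ : ℍ := ⟨x, hx⟩ with hτ
    have hxτ : x = (τ : ℂ) := rfl
    obtain ⟨n, hn⟩ := ENat.ne_top_iff_exists.1 (order_ne_top ha0 hx)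
    obtain ⟨k, hk⟩ := ENat.ne_top_iff_exists.1 (order_ne_top hb0 hx)
    have h1 := taylorAt_order τ a n hn.symm
    have h2 := taylorAt_order τ b k hk.symm
    have h3 := h τ
    have hta : taylorAt τ a ≠ 0 := fun h0 => ha0 (taylorAt_injective τ (by rw [h0, map_zero]))
    have htb : taylorAt τ b ≠ 0 := fun h0 => hb0 (taylorAt_injective τ (by rw [h0, map_zero]))
    have h4 : tay τ (algebraMap Hol Mer a / algebraMap Hol Mer b) = taylorAt τ a / taylorAt τ b := by
      rw [map_div₀, tay_algebraMap, tay_algebraMap]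
    have h5 : (taylorAt τ a).order = (taylorAt τ a / taylorAt τ b).order + (taylorAt τ b).order := by
      rw [← HahnSeries.order_mul (div_ne_zero hta htb) htb, div_mul_cancel₀ _ htb]
    unfold ordAt at h3
    rw [h4] at h3
    rw [← hn, ← hk]
    have : (k : ℤ) ≤ n := by omega
    exact_mod_cast this
  obtain ⟨g, hg, hgeq⟩ := exists_global_quot isOpen_upperHalfPlaneSet
    (analyticOnNhd_comp_ofComplex a) (analyticOnNhd_comp_ofComplex b)
    (fun x hx => order_ne_top hb0 hx) hle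
  have hmd : MDiff (fun τ : ℍ => g (τ : ℂ)) := by
    rw [UpperHalfPlane.mdifferentiable_iff]
    refine hg.differentiableOn.congr fun z hz => ?_
    simp only [Function.comp_apply]
    rw [ofComplex_apply_of_im_pos hz]
  refine ⟨⟨fun τ : ℍ => g (τ : ℂ), hmd⟩, ?_⟩
  have hbM : algebraMap Hol Mer b ≠ 0 := by
    intro h0
    exact hb0 (IsFractionRing.injective Hol Mer (by rw [h0, map_zero]))
  rw [eq_div_iff hbM, ← map_mul]
  congr 1
  ext τ
  have := hgeq (τ : ℂ) τ.im_pos
  simpa using this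

end

end Fermat.Agent.ES.An
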