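import Fermat.Agent.ES.An.Defs

/-! # ES/An-MkMF : building modular forms on `Γ₀(N)` from slash conditions; small slash lemmas. -/

set_option autoImplicit false

open AlgebraicCurve ModularCurve UpperHalfPlane
open scoped MatrixGroups IntermediateField Manifold ModularForm

namespace Fermat.Agent.ES.An

open Fermat.Agent.S24

noncomputable section

/-- holomorphic + `Γ₀(N)`-invariant of weight `k` + bounded at all cusps `⇒` modular form. -/
theorem isMF_of (N : ℕ) [NeZero N] (k : ℤ) (F : ℍ → ℂ) (h1 : MDiff F)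
    (h2 : ∀ γ : CongruenceSubgroup.Gamma0 N, F ∣[k] (γ : SL(2, ℤ)) = F)
    (h3 : ∀ g : SL(2, ℤ), IsBoundedAtImInfty (F ∣[k] g)) : Sturm.IsMF N k F := by
  refine ⟨{ toFun := F, slash_action_eq' := ?_, holo' := h1, bdd_at_cusps' := ?_ }, rfl⟩
  · rintro _ ⟨γ, hγ, rfl⟩
    exact h2 ⟨γ, hγ⟩
  · intro c hc
    rw [Subgroup.IsArithmetic.isCusp_iff_isCusp_SL2Z] at hc
    rw [OnePoint.isBoundedAt_iff_forall_SL2Z hc]
    exact fun γ _ => h3 γ

theorem IsMF_slash_eq {N : ℕ} {k : ℤ} {F : ℍ → ℂ} (hF : Sturm.IsMF N k F)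
    (γ : CongruenceSubgroup.Gamma0 N) : F ∣[k] (γ : SL(2, ℤ)) = F := by
  obtain ⟨f, rfl⟩ := hF
  exact f.slash_action_eq' _ ⟨γ, γ.2, rfl⟩

theorem IsMF_bdd_slash {N : ℕ} [NeZero N] {k : ℤ} {F : ℍ → ℂ} (hF : Sturm.IsMF N k F)
    (g : SL(2, ℤ)) : IsBoundedAtImInfty (F ∣[k] g) := by
  obtain ⟨f, rfl⟩ := hF
  exact ModularFormClass.bdd_at_infty_slash f g

theorem slash_pow (k : ℤ) (g : SL(2, ℤ)) (F : ℍ → ℂ) (m : ℕ) :
    (F ^ m) ∣[k * m] g = (F ∣[k] g) ^ m := by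
  funext τ
  rw [ModularForm.SL_slash_apply, Pi.pow_apply, Pi.pow_apply, ModularForm.SL_slash_apply, mul_pow,
    ← zpow_natCast (denom _ _ ^ (-k)) m, ← zpow_mul]
  congr 2
  ring

theorem mdiff_slash {F : ℍ → ℂ} (hF : MDiff F) (k : ℤ) (g : SL(2, ℤ)) : MDiff (F ∣[k] g) := by
  rw [ModularForm.SL_slash]
  exact hF.slash k _

/-- the slash of a holomorphic function, as an element of `Hol`. -/
def slHol (k : ℤ) (g : SL(2, ℤ)) (F : Hol) : Hol := ⟨(F : ℍ → ℂ) ∣[k] g, mdiff_slash F.2 k g⟩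

theorem slHol_apply (k : ℤ) (g : SL(2, ℤ)) (F : Hol) (τ : ℍ) :
    (slHol k g F : ℍ → ℂ) τ = (F : ℍ → ℂ) (g • τ) * denom g τ ^ (-k) :=
  ModularForm.SL_slash_apply _ _ _

theorem coe_slHol (k : ℤ) (g : SL(2, ℤ)) (F : Hol) :
    (slHol k g F : ℍ → ℂ) = (F : ℍ → ℂ) ∣[k] g := rfl

theorem slHol_ne_zero (k : ℤ) (g : SL(2, ℤ)) {F : Hol} (hF : F ≠ 0) : slHol k g F ≠ 0 := by
  intro h
  apply hF
  apply Subtype.ext
  funext τ
  have h1 := congrFun (congrArg Subtype.val h) (g⁻¹ • τ)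
  rw [slHol_apply, smul_inv_smul] at h1
  exact (mul_eq_zero.mp h1).resolve_right (zpow_ne_zero _ (denom_ne_zero _ _))

/-- cross multiplication: `(F ∘ g) * (G ∣ g) = (F ∣ g) * (G ∘ g)`. -/
theorem cmpHol_mul_slHol (k : ℤ) (g : SL(2, ℤ)) (F G : Hol) :
    cmpHol (slp g) F * slHol k g G = slHol k g F * cmpHol (slp g) G := by
  apply Subtype.ext
  funext τ
  show (cmpHol (slp g) F : ℍ → ℂ) τ * (slHol k g G : ℍ → ℂ) τ
    = (slHol k g F : ℍ → ℂ) τ * (cmpHol (slp g) G : ℍ → ℂ) τ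
  rw [cmpHol_apply, cmpHol_apply, slHol_apply, slHol_apply, slp_smul]
  ring

/-- `(F / G) ∘ g = (F ∣ g) / (G ∣ g)`. -/
theorem cmp_div_eq (k : ℤ) (g : SL(2, ℤ)) (F G : Hol) (hG : G ≠ 0) :
    cmp (slp g) (algebraMap Hol Mer F / algebraMap Hol Mer G)
      = algebraMap Hol Mer (slHol k g F) / algebraMap Hol Mer (slHol k g G) := by
  have hinj := IsFractionRing.injective Hol Mer
  have h1 : algebraMap Hol Mer (cmpHol (slp g) G) ≠ 0 := by
    rw [Ne, map_eq_zero_iff _ hinj]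
    intro h
    exact hG (cmpHol_injective (slp g) (by rw [h, map_zero]))
  have h2 : algebraMap Hol Mer (slHol k g G) ≠ 0 := by
    rw [Ne, map_eq_zero_iff _ hinj]
    exact slHol_ne_zero k g hG
  rw [map_div₀, cmp_algebraMap, cmp_algebraMap, div_eq_div_iff h1 h2, ← map_mul, ← map_mul,
    cmpHol_mul_slHol]

theorem bdd_of_pow {F : ℍ → ℂ} {m : ℕ} (hm : 0 < m) (h : IsBoundedAtImInfty (F ^ m)) :
    IsBoundedAtImInfty F := by
  rw [isBoundedAtImInfty_iff] at h ⊢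
  obtain ⟨M, A, hMA⟩ := h
  refine ⟨max 1 M, A, fun z hz => ?_⟩
  have h1 := hMA z hz
  rw [Pi.pow_apply, norm_pow] at h1
  by_cases h2 : ‖F z‖ ≤ 1
  · exact h2.trans (le_max_left _ _)
  · rw [not_le] at h2
    exact ((le_self_pow₀ h2.le hm.ne').trans h1).trans (le_max_right _ _)

theorem bdd_pow {F : ℍ → ℂ} (h : IsBoundedAtImInfty F) (m : ℕ) : IsBoundedAtImInfty (F ^ m) := by
  induction m with
  | zero =>
    rw [pow_zero]
    exact Filter.const_boundedAtFilter _ (1 : ℂ)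
  | succ n ih =>
    rw [pow_succ]
    exact ih.mul h

/-- periodicity of `F ∘ ofComplex` from invariance under a real translation. -/
theorem periodic_of_vadd (F : ℍ → ℂ) (h : ℝ) (hF : ∀ τ : ℍ, F (h +ᵥ τ) = F τ) :
    Function.Periodic (F ∘ ofComplex) (h : ℂ) := by
  intro z
  by_cases hz : 0 < z.im
  · have hz' : 0 < (z + (h : ℂ)).im := by simpa using hz
    rw [Function.comp_apply, Function.comp_apply, ofComplex_apply_of_im_pos hz,
      ofComplex_apply_of_im_pos hz', ← hF ⟨z, hz⟩]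
    congr 1
    apply UpperHalfPlane.ext
    rw [UpperHalfPlane.coe_vadd]
    simp [add_comm]
  · rw [not_lt] at hz
    have hz' : (z + (h : ℂ)).im ≤ 0 := by simpa using hz
    rw [Function.comp_apply, Function.comp_apply, ofComplex_apply_eq_of_im_nonpos hz' hz]

end

end Fermat.Agent.ES.An
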