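import Fermat.Agent.ES.An.Degree
import Fermat.Agent.ES.An.HolCrit
import Fermat.Agent.ES.An.MkMF

/-! # ES/An-Ker : a `Γ₀(N)`-invariant `m`-th root of an element of `FC N` lies in `FC N`.

Proof: `toMer f = A / B` (`isMFr_toMer`), weight `k`.  `v := w * B` satisfies `v ^ m = A * B ^ (m-1)`, a modular form of
weight `m k`; so `ordAt τ v ≥ 0` for all `τ`, `v` is holomorphic (`exists_Hol_of_ordAt_nonneg`), `v ∣[k] γ = v` for
`γ ∈ Γ₀(N)` (`w` invariant, `B` modular), and `v ∣[k] g` is bounded at `i∞` for every `g ∈ SL₂(ℤ)` because its `m`-th power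
is.  Hence `v` is a modular form of weight `k` and `w = v / B` is `IsMFr`; conclude by `mem_range_of_isMFr`. -/

set_option autoImplicit false

open AlgebraicCurve ModularCurve UpperHalfPlane
open scoped MatrixGroups IntermediateField Manifold ModularForm

namespace Fermat.Agent.ES.An

open Fermat.Agent.S24

noncomputable section

variable (N : ℕ) [NeZero N]

theorem mem_range_of_pow (m : ℕ) (hm : 0 < m) (w : Mer) (f : FC N) (hw : w ^ m = toMer N f)
    (hinv : ∀ γ : CongruenceSubgroup.Gamma0 N, cmp (slp (γ : SL(2, ℤ))) w = w) :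
    ∃ h : FC N, toMer N h = w := by
  obtain ⟨k, A, B, hA, hB, hB0, hAB⟩ := isMFr_toMer N f
  have hinj := IsFractionRing.injective Hol Mer
  have hbM : algebraMap Hol Mer B ≠ 0 := by
    rw [Ne, map_eq_zero_iff _ hinj]
    exact hB0
  obtain ⟨n, rfl⟩ : ∃ n, m = n + 1 := ⟨m - 1, by omega⟩
  have hv : (w * algebraMap Hol Mer B) ^ (n + 1) = algebraMap Hol Mer (A * B ^ n) := by
    rw [mul_pow, hw, hAB, map_mul, map_pow, pow_succ]
    field_simp
  have hord : ∀ τ, 0 ≤ ordAt τ (w * algebraMap Hol Mer B) := by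
    intro τ
    have h1 := ordAt_pow τ (w * algebraMap Hol Mer B) (n + 1)
    rw [hv] at h1
    have h2 := ordAt_algebraMap_nonneg τ (A * B ^ n)
    rw [h1] at h2
    have h3 : (0 : ℤ) < ((n + 1 : ℕ) : ℤ) := by positivity
    exact nonneg_of_mul_nonneg_right h2 h3
  obtain ⟨V, hV⟩ := exists_Hol_of_ordAt_nonneg _ hord
  have hVm : V ^ (n + 1) = A * B ^ n := hinj (by rw [map_pow, hV, hv])
  have hVmf : (V : ℍ → ℂ) ^ (n + 1) = (A : ℍ → ℂ) * (B : ℍ → ℂ) ^ n :=
    congrArg Subtype.val hVm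
  have hP : Sturm.IsMF N (k * ((n + 1 : ℕ) : ℤ)) ((V : ℍ → ℂ) ^ (n + 1)) := by
    rw [hVmf]
    exact (hA.mul (hB.pow n)).cast (by push_cast; ring)
  have hMF : Sturm.IsMF N k (V : ℍ → ℂ) := by
    refine isMF_of N k V V.2 (fun γ => ?_) (fun g => ?_)
    · -- slash invariance
      have h1 : algebraMap Hol Mer (cmpHol (slp (γ : SL(2, ℤ))) V)
          = w * algebraMap Hol Mer (cmpHol (slp (γ : SL(2, ℤ))) B) := by
        rw [← cmp_algebraMap, hV, map_mul, hinv γ, cmp_algebraMap]
      have h2 : cmpHol (slp (γ : SL(2, ℤ))) V * B = V * cmpHol (slp (γ : SL(2, ℤ))) B := by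
        apply hinj
        rw [map_mul, map_mul, h1, hV]
        ring
      have h3 : slHol k γ B = B := Subtype.ext (IsMF_slash_eq hB γ)
      have h4 := cmpHol_mul_slHol k (γ : SL(2, ℤ)) V B
      rw [h3, h2] at h4
      have h5 : cmpHol (slp (γ : SL(2, ℤ))) B ≠ 0 := by
        intro h
        exact hB0 (cmpHol_injective _ (by rw [h, map_zero]))
      have h6 : V = slHol k γ V := mul_right_cancel₀ h5 h4
      exact (congrArg Subtype.val h6).symm
    · apply bdd_of_pow (Nat.succ_pos n)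
      rw [← slash_pow]
      exact IsMF_bdd_slash hP g
  refine mem_range_of_isMFr N w ⟨k, V, B, hMF, hB, hB0, ?_⟩
  rw [hV, mul_div_assoc, div_self hbM, mul_one]

end

end Fermat.Agent.ES.An
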