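import Fermat.Agent.ES.An.Defs
import Fermat.Agent.S17.F.RootBall

/-! # ES/An-Root : `m`-th roots on the upper half plane.

`exists_root_Hol`: from the root lemma on the half plane `Fermat.Agent.S17.F.exists_root_halfPlane`
(exhaust `ℍ` by discs, on each closed disc split off the finitely many zeros, take a logarithm of the rest, glue by normalising
roots of unity). -/

set_option autoImplicit false

open AlgebraicCurve ModularCurve UpperHalfPlane
open scoped MatrixGroups IntermediateField Manifold ModularForm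

namespace Fermat.Agent.ES.An

open Fermat.Agent.S24

noncomputable section

/-- a nonzero holomorphic function has finite order everywhere. -/
theorem Root.analyticOrderAt_ne_top (f : Hol) (hf : f ≠ 0) (τ : ℍ) :
    analyticOrderAt ((f : ℍ → ℂ) ∘ ofComplex) (τ : ℂ) ≠ ⊤ := by
  intro h2
  rw [analyticOrderAt_eq_top] at h2
  have hd : DifferentiableOn ℂ ((f : ℍ → ℂ) ∘ ofComplex) {z : ℂ | 0 < z.im} :=
    UpperHalfPlane.mdifferentiable_iff.mp f.2
  have han : AnalyticOnNhd ℂ ((f : ℍ → ℂ) ∘ ofComplex) {z : ℂ | 0 < z.im} :=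
    hd.analyticOnNhd isOpen_upperHalfPlaneSet
  have hconn : IsPreconnected {z : ℂ | 0 < z.im} := (convex_halfSpace_im_gt 0).isPreconnected
  have h3 := han.eqOn_zero_of_preconnected_of_eventuallyEq_zero hconn τ.im_pos h2
  apply hf
  ext σ
  have := h3 σ.im_pos
  simpa using this

theorem exists_root_Hol (m : ℕ) (hm : 0 < m) (f : Hol) (hf : f ≠ 0)
    (h : ∀ τ : ℍ, (m : ℤ) ∣ (taylorAt τ f).order) : ∃ g : Hol, g ^ m = f := by
  have hd : DifferentiableOn ℂ ((f : ℍ → ℂ) ∘ ofComplex) {z : ℂ | 0 < z.im} :=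
    UpperHalfPlane.mdifferentiable_iff.mp f.2
  obtain ⟨u, hu, hum⟩ := Fermat.Agent.S17.F.exists_root_halfPlane hm hd (fun z hz => by
    obtain ⟨n, hn⟩ := ENat.ne_top_iff_exists.1 (Root.analyticOrderAt_ne_top f hf ⟨z, hz⟩)
    have hn' : analyticOrderAt ((f : ℍ → ℂ) ∘ ofComplex) z = n := hn.symm
    have h1 := taylorAt_order ⟨z, hz⟩ f n hn'
    have h2 := h ⟨z, hz⟩
    rw [h1] at h2
    obtain ⟨k, hk⟩ := Int.natCast_dvd_natCast.1 h2
    exact ⟨k, by rw [hn', hk]⟩)
  have hg : MDiff (fun τ : ℍ => u (τ : ℂ)) := by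
    rw [UpperHalfPlane.mdifferentiable_iff]
    refine hu.congr fun z hz => ?_
    simp only [Function.comp_apply]
    rw [ofComplex_apply_of_im_pos hz]
  refine ⟨⟨fun τ : ℍ => u (τ : ℂ), hg⟩, ?_⟩
  ext τ
  have := hum (τ : ℂ) τ.im_pos
  simpa using this

/-- reduction: `u = a / b`, apply `exists_root_Hol` to `a * b ^ (m - 1)`. -/
theorem exists_root (m : ℕ) (hm : 0 < m) (u : Mer) (hu : u ≠ 0)
    (h : ∀ τ : ℍ, (m : ℤ) ∣ ordAt τ u) : ∃ w : Mer, w ^ m = u := by
  obtain ⟨a, b, hb, rfl⟩ := IsFractionRing.div_surjective (A := Hol) u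
  have hb0 : b ≠ 0 := nonZeroDivisors.ne_zero hb
  have hb' : algebraMap Hol Mer b ≠ 0 := by
    rwa [Ne, IsFractionRing.to_map_eq_zero_iff]
  have ha' : algebraMap Hol Mer a ≠ 0 := by
    intro h0
    apply hu
    rw [h0, zero_div]
  have ha0 : a ≠ 0 := by
    rintro rfl
    exact ha' (map_zero _)
  have hkey : algebraMap Hol Mer (a * b ^ (m - 1))
      = algebraMap Hol Mer a / algebraMap Hol Mer b * algebraMap Hol Mer b ^ m := by
    rw [map_mul, map_pow]
    obtain ⟨k, rfl⟩ : ∃ k, m = k + 1 := ⟨m - 1, by omega⟩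
    simp only [Nat.add_sub_cancel]
    field_simp
    rw [pow_succ]
  obtain ⟨g, hg⟩ := exists_root_Hol m hm (a * b ^ (m - 1)) (mul_ne_zero ha0 (pow_ne_zero _ hb0))
    (fun τ => by
      rw [← tay_algebraMap, hkey, map_mul, map_pow]
      have h1 : tay τ (algebraMap Hol Mer a / algebraMap Hol Mer b) ≠ 0 :=
        (map_ne_zero (tay τ)).2 hu
      have h2 : tay τ (algebraMap Hol Mer b) ≠ 0 := (map_ne_zero (tay τ)).2 hb'
      rw [HahnSeries.order_mul h1 (pow_ne_zero _ h2), HahnSeries.order_pow]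
      exact dvd_add (h τ) ⟨HahnSeries.order (tay τ (algebraMap Hol Mer b)), by simp⟩)
  refine ⟨algebraMap Hol Mer g / algebraMap Hol Mer b, ?_⟩
  rw [div_pow, ← map_pow, hg, hkey]
  field_simp

end

end Fermat.Agent.ES.An
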