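import Fermat.Agent.ES.An.BC
import Fermat.Agent.ES.An.Char
import Fermat.Agent.ES.An.Root
import Fermat.Agent.ES.An.Ker

/-! # ES/An-CharC : the character of a class in `D_m(F_ℂ) / F_ℂ^{×m}`. -/

set_option autoImplicit false

open AlgebraicCurve ModularCurve UpperHalfPlane
open scoped MatrixGroups IntermediateField Manifold ModularForm

namespace Fermat.Agent.ES.An

open Fermat.Agent.S24

noncomputable section

variable (N : ℕ) [NeZero N]

/-- `χ` is the character of the `m`-th roots of `f`. -/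
def HasCharC (m : ℕ) (f : FC N) (χ : CongruenceSubgroup.Gamma0 N →* ℂˣ) : Prop :=
  ∃ w : Mer, w ≠ 0 ∧ w ^ m = toMer N f ∧ IsChar w χ

variable {N}

/-- `Model.dvd_ordAt` for `modelC`, `exists_root`, `exists_isChar_of_pow`, `cmp_toMer`. -/
theorem exists_hasCharC (m : ℕ) (hm : 0 < m) (f : FC N) (hf0 : f ≠ 0) (hf : DivBy ℂ m f) :
    ∃ χ, HasCharC N m f χ ∧ χ ^ m = 1 := by
  have hne : toMer N f ≠ 0 := by rwa [Ne, map_eq_zero]
  obtain ⟨w, hw⟩ := exists_root m hm (toMer N f) hne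
    (fun τ => (modelC N).dvd_ordAt m f hf τ)
  have hw0 : w ≠ 0 := by
    rintro rfl
    rw [zero_pow hm.ne'] at hw
    exact hne hw.symm
  obtain ⟨χ, hχ, hχm⟩ := exists_isChar_of_pow (N := N) m hm w hw0
    (fun γ => by rw [hw]; exact cmp_toMer N γ _)
  exact ⟨χ, ⟨w, hw0, hw, hχ⟩, hχm⟩

theorem HasCharC.unique {m : ℕ} (hm : 0 < m) {f : FC N} {χ χ' : CongruenceSubgroup.Gamma0 N →* ℂˣ}
    (h : HasCharC N m f χ) (h' : HasCharC N m f χ') : χ = χ' := by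
  obtain ⟨w, hw0, hw, hχ⟩ := h
  obtain ⟨w', hw'0, hw', hχ'⟩ := h'
  obtain ⟨c, -, hc⟩ := exists_const_of_pow_eq m hm hw0 (hw'.trans hw.symm)
  have h2 : IsChar w' χ := hc ▸ hχ.const_mul c
  exact IsChar.unique hw'0 h2 hχ'

theorem HasCharC.mul {m : ℕ} {f g : FC N} {χ χ' : CongruenceSubgroup.Gamma0 N →* ℂˣ}
    (h : HasCharC N m f χ) (h' : HasCharC N m g χ') : HasCharC N m (f * g) (χ * χ') := by
  obtain ⟨w, hw0, hw, hχ⟩ := h
  obtain ⟨w', hw'0, hw', hχ'⟩ := h'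
  exact ⟨w * w', mul_ne_zero hw0 hw'0, by rw [mul_pow, hw, hw', map_mul], hχ.mul hχ'⟩

theorem HasCharC.inv {m : ℕ} {f : FC N} {χ : CongruenceSubgroup.Gamma0 N →* ℂˣ}
    (h : HasCharC N m f χ) : HasCharC N m f⁻¹ χ⁻¹ := by
  obtain ⟨w, hw0, hw, hχ⟩ := h
  exact ⟨w⁻¹, inv_ne_zero hw0, by rw [inv_pow, hw, map_inv₀], hχ.inv⟩

theorem hasCharC_pow (m : ℕ) (h : FC N) (hh : h ≠ 0) : HasCharC N m (h ^ m) 1 :=
  ⟨toMer N h, by rwa [Ne, map_eq_zero], by rw [map_pow],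
    isChar_one_iff.mpr fun γ => cmp_toMer N γ h⟩

/-- kernel (`mem_range_of_pow`). -/
theorem HasCharC.exists_root {m : ℕ} (hm : 0 < m) {f : FC N} (h : HasCharC N m f 1) :
    ∃ g : FC N, f = g ^ m := by
  obtain ⟨w, hw0, hw, hχ⟩ := h
  obtain ⟨g, hg⟩ := mem_range_of_pow N m hm w f hw (isChar_one_iff.mp hχ)
  refine ⟨g, toMer_injective N ?_⟩
  rw [map_pow, hg, hw]

/-- two elements with the same character differ by an `m`-th power. -/
theorem HasCharC.exists_eq_mul_pow {m : ℕ} (hm : 0 < m) {f g : FC N}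
    {χ : CongruenceSubgroup.Gamma0 N →* ℂˣ} (h : HasCharC N m f χ) (h' : HasCharC N m g χ) :
    ∃ k : FC N, k ≠ 0 ∧ g = f * k ^ m := by
  have hf0 : f ≠ 0 := by
    obtain ⟨w, hw0, hw, -⟩ := h
    rintro rfl
    rw [map_zero] at hw
    exact hw0 ((pow_eq_zero_iff hm.ne').mp hw)
  have hg0 : g ≠ 0 := by
    obtain ⟨w, hw0, hw, -⟩ := h'
    rintro rfl
    rw [map_zero] at hw
    exact hw0 ((pow_eq_zero_iff hm.ne').mp hw)
  have h1 : HasCharC N m (g * f⁻¹) 1 := by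
    have h2 := h'.mul h.inv
    have h3 : χ * χ⁻¹ = 1 := mul_inv_cancel χ
    rw [h3] at h2
    exact h2
  obtain ⟨k, hk⟩ := h1.exists_root hm
  refine ⟨k, ?_, ?_⟩
  · rintro rfl
    rw [zero_pow hm.ne'] at hk
    exact (mul_ne_zero hg0 (inv_ne_zero hf0)) hk
  · rw [← hk]
    field_simp

end

end Fermat.Agent.ES.An
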