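import Fermat.Agent.S24.Packages
import Fermat.Agent.S24.Sturm
import Fermat.Agent.S16.Shimura.HeckeCorr

/-!
# ES / (A) analytic side: shared definitions

`Mer` = fraction field of the ring `S24.Hol` of holomorphic functions on `ℍ`.
* `cmp α : Mer →ₐ[ℂ] Mer`   : `u ↦ u ∘ α` for `α ∈ GL₂(ℝ)⁺`
* `tay τ : Mer →ₐ[ℂ] ℂ((t))` : Taylor/Laurent expansion at `τ` (in the Cayley coordinate of S24)
* `MerCusp h`, `lau h`       : functions meromorphic at `i∞` with period `h`, their `q_h`-expansion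
* `FC N`                     : function field of `X₀(N)` over `ℂ` inside `ℂ((q))`
-/

set_option autoImplicit false

open AlgebraicCurve ModularCurve UpperHalfPlane
open scoped MatrixGroups IntermediateField Manifold

namespace Fermat.Agent.ES.An

open Fermat.Agent.S24

noncomputable section

/-- `GL₂(ℝ)⁺`. -/
abbrev GLp : Type := Matrix.GLPos (Fin 2) ℝ

/-- `SL₂(ℤ) → GL₂(ℝ)⁺`. -/
def slp : SL(2, ℤ) →* GLp where
  toFun γ := ⟨Matrix.SpecialLinearGroup.mapGL ℝ γ, by
    rw [Matrix.mem_glpos]; simp⟩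
  map_one' := by ext1; simp
  map_mul' a b := by ext1; simp

theorem coe_slp (γ : SL(2, ℤ)) :
    ((slp γ : GLp) : GL (Fin 2) ℝ) = Matrix.SpecialLinearGroup.mapGL ℝ γ := rfl

theorem slp_smul (γ : SL(2, ℤ)) (τ : ℍ) : slp γ • τ = γ • τ := rfl

instance instIsDomainHol : IsDomain Hol :=
  (taylorAt_injective UpperHalfPlane.I).isDomain (taylorAt UpperHalfPlane.I).toRingHom

/-- The field of meromorphic functions on `ℍ` (quotients of holomorphic functions). -/
abbrev Mer : Type := FractionRing Hol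

/-- `f ↦ f ∘ α` on holomorphic functions. -/
def cmpHol (α : GLp) : Hol →ₐ[ℂ] Hol where
  toFun f := ⟨fun τ => (f : ℍ → ℂ) (α • τ), by
    show MDiff (fun τ => (f : ℍ → ℂ) (α • τ))
    have h1 : MDiff (fun τ : ℍ => α • τ) :=
      UpperHalfPlane.mdifferentiable_smul (g := (α : GL (Fin 2) ℝ)) α.2
    exact f.2.comp h1⟩
  map_one' := rfl
  map_mul' _ _ := rfl
  map_zero' := rfl
  map_add' _ _ := rfl
  commutes' _ := rfl

theorem cmpHol_apply (α : GLp) (f : Hol) (τ : ℍ) :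
    (cmpHol α f : ℍ → ℂ) τ = (f : ℍ → ℂ) (α • τ) := rfl

theorem cmpHol_injective (α : GLp) : Function.Injective (cmpHol α) := by
  intro f g h
  apply Subtype.ext
  funext τ
  have := congrFun (congrArg Subtype.val h) (α⁻¹ • τ)
  rw [cmpHol_apply, cmpHol_apply, smul_inv_smul] at this
  exact this

theorem cmpAux_injective (α : GLp) :
    Function.Injective ((IsScalarTower.toAlgHom ℂ Hol Mer).comp (cmpHol α)) := by
  intro f g h
  exact cmpHol_injective α (IsFractionRing.injective Hol Mer h)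

/-- `u ↦ u ∘ α` on meromorphic functions. -/
def cmp (α : GLp) : Mer →ₐ[ℂ] Mer :=
  IsFractionRing.liftAlgHom (K := Mer)
    (g := (IsScalarTower.toAlgHom ℂ Hol Mer).comp (cmpHol α)) (cmpAux_injective α)

theorem cmp_algebraMap (α : GLp) (f : Hol) :
    cmp α (algebraMap Hol Mer f) = algebraMap Hol Mer (cmpHol α f) := by
  unfold cmp
  rw [IsFractionRing.liftAlgHom_apply, IsFractionRing.lift_algebraMap]
  rfl

/-- Taylor / Laurent expansion at `τ`. -/
def tay (τ : ℍ) : Mer →ₐ[ℂ] LaurentSeries ℂ :=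
  IsFractionRing.liftAlgHom (K := Mer) (g := taylorAt τ) (taylorAt_injective τ)

theorem tay_algebraMap (τ : ℍ) (f : Hol) : tay τ (algebraMap Hol Mer f) = taylorAt τ f := by
  unfold tay
  rw [IsFractionRing.liftAlgHom_apply, IsFractionRing.lift_algebraMap]
  rfl

/-- The order of a meromorphic function at `τ` (`0` for the zero function). -/
def ordAt (τ : ℍ) (u : Mer) : ℤ := (tay τ u).order

/-- `HolCusp h ⊆ Hol`. -/
def cuspIncl (h : ℕ) [NeZero h] : HolCusp h →ₐ[ℂ] Hol where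
  toFun f := ⟨(f : ℍ → ℂ), f.2.1⟩
  map_one' := rfl
  map_mul' _ _ := rfl
  map_zero' := rfl
  map_add' _ _ := rfl
  commutes' _ := rfl

theorem cuspIncl_injective (h : ℕ) [NeZero h] : Function.Injective (cuspIncl h) := by
  intro f g hfg
  exact Subtype.ext (congrArg (fun x : Hol => (x : ℍ → ℂ)) hfg)

instance instIsDomainHolCusp (h : ℕ) [NeZero h] : IsDomain (HolCusp h) :=
  (cuspIncl_injective h).isDomain (cuspIncl h).toRingHom

/-- The abstract field of quotients of elements of `HolCusp h`. -/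
abbrev MerC (h : ℕ) [NeZero h] : Type := FractionRing (HolCusp h)

theorem cuspAux_injective (h : ℕ) [NeZero h] :
    Function.Injective ((IsScalarTower.toAlgHom ℂ Hol Mer).comp (cuspIncl h)) := by
  intro f g hfg
  exact cuspIncl_injective h (IsFractionRing.injective Hol Mer hfg)

/-- `MerC h → Mer`. -/
def cuspToMer (h : ℕ) [NeZero h] : MerC h →ₐ[ℂ] Mer :=
  IsFractionRing.liftAlgHom (K := MerC h)
    (g := (IsScalarTower.toAlgHom ℂ Hol Mer).comp (cuspIncl h)) (cuspAux_injective h)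

/-- `q_h`-expansion on `MerC h`. -/
def lauC (h : ℕ) [NeZero h] : MerC h →ₐ[ℂ] LaurentSeries ℂ :=
  IsFractionRing.liftAlgHom (K := MerC h) (g := laurent h) (laurent_injective h)

theorem cuspToMer_algebraMap (h : ℕ) [NeZero h] (f : HolCusp h) :
    cuspToMer h (algebraMap (HolCusp h) (MerC h) f) = algebraMap Hol Mer (cuspIncl h f) := by
  unfold cuspToMer
  rw [IsFractionRing.liftAlgHom_apply, IsFractionRing.lift_algebraMap]
  rfl

theorem lauC_algebraMap (h : ℕ) [NeZero h] (f : HolCusp h) :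
    lauC h (algebraMap (HolCusp h) (MerC h) f) = laurent h f := by
  unfold lauC
  rw [IsFractionRing.liftAlgHom_apply, IsFractionRing.lift_algebraMap]
  rfl

/-- The subfield of `Mer` of `h`-periodic functions meromorphic at `i∞`. -/
def MerCusp (h : ℕ) [NeZero h] : IntermediateField ℂ Mer := (cuspToMer h).fieldRange

/-- `q_h`-expansion on `MerCusp h`. -/
def lau (h : ℕ) [NeZero h] : MerCusp h →ₐ[ℂ] LaurentSeries ℂ :=
  (lauC h).comp (AlgEquiv.ofInjectiveField (cuspToMer h)).symm.toAlgHom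

/-- `u : Mer` is `h`-periodic and meromorphic at `i∞`, with `q_h`-expansion `x`. -/
def HasLau (h : ℕ) [NeZero h] (u : Mer) (x : LaurentSeries ℂ) : Prop :=
  ∃ v : MerC h, cuspToMer h v = u ∧ lauC h v = x

/-- The function field of `X₀(N)` over `ℂ`, inside `ℂ((q))`. -/
abbrev FC (N : ℕ) : Type := ↥(laurentBaseChange ℂ (modularFunctionFieldFull N))

/-- `j(dτ)` in `Hol`. -/
def jdHol (d : ℕ) [NeZero d] : Hol := ⟨jd d, jd_mdiff d⟩

/-- `j(dτ)` in `Mer`. -/
def jdMer (d : ℕ) [NeZero d] : Mer := algebraMap Hol Mer (jdHol d)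

/-- `j` in `Mer`. -/
def jMer : Mer := jdMer 1

/-- the formal `j(q^d)` in `ℂ((q))`. -/
def jSerC (d : ℕ) [NeZero d] : LaurentSeries ℂ := coeffEmb ℂ (qExpand ℚ d jq)

theorem jSerC_mem (N d : ℕ) [NeZero d] (hd : d ∣ N) :
    jSerC d ∈ laurentBaseChange ℂ (modularFunctionFieldFull N) :=
  coeffEmb_mem_laurentBaseChange ℂ (jqd_mem_full N hd)

/-- `j(q^d)` in `FC N`. -/
def jFC (N d : ℕ) [NeZero d] (hd : d ∣ N) : FC N := ⟨jSerC d, jSerC_mem N d hd⟩

/-- `j` in `FC N`. -/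
def jC (N : ℕ) : FC N := jFC N 1 (one_dvd N)

/-- `w ∘ γ = χ(γ) w` for all `γ ∈ Γ₀(N)`. -/
def IsChar {N : ℕ} (w : Mer) (χ : CongruenceSubgroup.Gamma0 N →* ℂˣ) : Prop :=
  ∀ γ : CongruenceSubgroup.Gamma0 N, cmp (slp (γ : SL(2, ℤ))) w = ((χ γ : ℂˣ) : ℂ) • w

/-- unitary characters of `Γ₀(N)` killing `±1`, elliptic and parabolic elements. -/
def IsGood {N : ℕ} (ψ : CongruenceSubgroup.Gamma0 N →* ℂˣ) : Prop :=
  (∀ γ, ‖((ψ γ : ℂˣ) : ℂ)‖ = 1) ∧
    ∀ γ : CongruenceSubgroup.Gamma0 N, |((γ : SL(2, ℤ)) : Matrix (Fin 2) (Fin 2) ℤ).trace| ≤ 2 →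
      ψ γ = 1

/-- `m ∣ ord_P f` for all places. -/
def DivBy (K : Type*) {F : Type*} [Field K] [Field F] [Algebra K F] (m : ℕ) (f : F) : Prop :=
  ∀ P : Place K F, (m : ℤ) ∣ P.ord f

end

end Fermat.Agent.ES.An
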