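import Fermat.Agent.ES.An.SturmDep

/-! # ES/An-Degree : `[FC N : ℂ(j)] = [SL₂(ℤ) : Γ₀(N)]` and every quotient of modular forms lies in `FC N`.

* `≤` and finiteness: `isMFr_dependence` + `isMFr_toMer` (as in `S24/Sturm/Alg.lean`).
* `≥`: the embeddings `a = gΓ₀(N) ↦ tay τ₀ ∘ cmp (slp g⁻¹) ∘ toMer` are pairwise distinct (`mem_Gamma0_of_cmp`,
  injectivity of `tay`, `cmp`) and agree on `j`: `S24.card_le_finrank_of_embeddings`.
* `mem_range_of_isMFr`: `IsMFr` elements form a field `E ⊇ toMer (FC N)` in which any `n+1` elements are dependent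
  over `ℂ(j)`; so `[E : ℂ(j)] ≤ n = [toMer (FC N) : ℂ(j)]`. -/

set_option autoImplicit false

open AlgebraicCurve ModularCurve UpperHalfPlane
open scoped MatrixGroups IntermediateField Manifold ModularForm

namespace Fermat.Agent.ES.An

open Fermat.Agent.S24

noncomputable section

variable (N : ℕ) [NeZero N]

namespace Degree

/-- `toMer` maps `ℂ(j) ⊆ FC N` onto `ℂ(j) ⊆ Mer`. -/
theorem map_adjoin_jC : (ℂ⟮jC N⟯).map (toMer N) = ℂ⟮jMer⟯ := by
  rw [IntermediateField.adjoin_map, Set.image_singleton, toMer_jC]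

theorem exists_preimage (r : ℂ⟮jMer⟯) : ∃ c : ℂ⟮jC N⟯, toMer N (c : FC N) = (r : Mer) := by
  have h : (r : Mer) ∈ (ℂ⟮jC N⟯).map (toMer N) := by
    rw [map_adjoin_jC]; exact r.2
  obtain ⟨c, hc, hcr⟩ := h
  exact ⟨⟨c, hc⟩, hcr⟩

/-- a section of `toMer : ℂ(j) → ℂ(j)`. -/
def sec (r : ℂ⟮jMer⟯) : ℂ⟮jC N⟯ := (exists_preimage N r).choose

theorem toMer_sec (r : ℂ⟮jMer⟯) : toMer N (sec N r : FC N) = (r : Mer) :=
  (exists_preimage N r).choose_spec

/-- linear independence over `ℂ(j)` is preserved by `toMer`. -/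
theorem linearIndependent_toMer {ι : Type*} {v : ι → FC N}
    (hv : LinearIndependent ℂ⟮jC N⟯ v) : LinearIndependent ℂ⟮jMer⟯ (fun i => toMer N (v i)) := by
  refine hv.map_of_injective_injective (sec N) ((toMer N : FC N →+* Mer) : FC N →+ Mer) ?_ ?_ ?_
  · intro r hr
    have h := toMer_sec N r
    rw [hr] at h
    apply Subtype.ext
    rw [← h]
    simp
  · intro m hm
    exact (map_eq_zero (toMer N)).mp hm
  · intro r m
    show toMer N (sec N r • m) = r • toMer N m
    rw [Algebra.smul_def, Algebra.smul_def, map_mul]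
    congr 1
    exact toMer_sec N r

theorem not_linearIndependent_FC (v : Fin ((CongruenceSubgroup.Gamma0 N).index + 1) → FC N) :
    ¬ LinearIndependent ℂ⟮jC N⟯ v := fun hv =>
  isMFr_dependence N _ (fun i => isMFr_toMer N (v i)) (linearIndependent_toMer N hv)

theorem rank_FC_le :
    Module.rank ℂ⟮jC N⟯ (FC N) ≤ ((CongruenceSubgroup.Gamma0 N).index : ℕ) := by
  refine rank_le fun s hs => ?_
  by_contra hcard
  rw [not_le] at hcard
  have hc : (CongruenceSubgroup.Gamma0 N).index + 1 ≤ Fintype.card s := by simpa using hcard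
  obtain ⟨e⟩ : Nonempty (Fin ((CongruenceSubgroup.Gamma0 N).index + 1) ↪ s) :=
    Function.Embedding.nonempty_of_card_le (by simpa using hc)
  exact not_linearIndependent_FC N _ (hs.comp e e.injective)

theorem cmp_jMer (g : SL(2, ℤ)) : cmp (slp g) jMer = jMer := by
  unfold jMer jdMer
  rw [cmp_algebraMap]
  congr 1
  apply Subtype.ext
  funext τ
  rw [cmpHol_apply]
  show jd 1 (slp g • τ) = jd 1 τ
  rw [Packages.jd_one, slp_smul, jfun_smul]

/-- the embeddings `FC N → ℂ((t))` indexed by the cosets. -/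
def emb (a : XN N) : FC N →ₐ[ℂ] LaurentSeries ℂ :=
  (tay UpperHalfPlane.I).comp ((cmp (slp (Quotient.out a)⁻¹)).comp (toMer N))

theorem emb_jC (a : XN N) : emb N a (jC N) = tay UpperHalfPlane.I jMer := by
  show tay UpperHalfPlane.I (cmp (slp (Quotient.out a)⁻¹) (toMer N (jC N))) = _
  rw [toMer_jC, cmp_jMer]

theorem emb_injective : Function.Injective (emb N) := by
  intro a b hab
  have h1 : ∀ f : FC N, cmp (slp (Quotient.out a)⁻¹) (toMer N f)
      = cmp (slp (Quotient.out b)⁻¹) (toMer N f) := by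
    intro f
    have := DFunLike.congr_fun hab f
    exact (tay UpperHalfPlane.I).toRingHom.injective this
  have h2 : (Quotient.out a)⁻¹ * Quotient.out b ∈ CongruenceSubgroup.Gamma0 N := by
    apply mem_Gamma0_of_cmp
    intro f
    rw [map_mul, cmp_mul, h1 f, ← cmp_mul, ← map_mul, inv_mul_cancel, map_one, cmp_one]
  have h3 : ((Quotient.out a : SL(2, ℤ)) : XN N) = ((Quotient.out b : SL(2, ℤ)) : XN N) :=
    QuotientGroup.eq.mpr h2
  rwa [QuotientGroup.out_eq', QuotientGroup.out_eq'] at h3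

end Degree

open Degree

theorem finiteDimensional_FC : FiniteDimensional ℂ⟮jC N⟯ (FC N) := by
  have hfree : Module.Free ℂ⟮jC N⟯ (FC N) := Module.Free.of_divisionRing _ _
  rw [FiniteDimensional, ← Module.rank_lt_aleph0_iff]
  exact lt_of_le_of_lt (rank_FC_le N) (Cardinal.natCast_lt_aleph0)

theorem finrank_FC : Module.finrank ℂ⟮jC N⟯ (FC N) = Nat.card (XN N) := by
  have hfd := finiteDimensional_FC N
  apply le_antisymm
  · have h := rank_FC_le N
    rw [← Module.finrank_eq_rank] at h
    have h' : Module.finrank ℂ⟮jC N⟯ (FC N) ≤ (CongruenceSubgroup.Gamma0 N).index := by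
      exact_mod_cast h
    exact h'
  · exact Packages.card_le_finrank_of_embeddings (jC N) (emb N) (emb_injective N)
      (fun a b => by rw [emb_jC, emb_jC])

theorem mem_range_of_isMFr (u : Mer) (h : IsMFr N u) : ∃ f : FC N, toMer N f = u := by
  have hfd := finiteDimensional_FC N
  have hn : Module.finrank ℂ⟮jC N⟯ (FC N) = (CongruenceSubgroup.Gamma0 N).index := finrank_FC N
  let b := Module.finBasisOfFinrankEq ℂ⟮jC N⟯ (FC N) hn
  have hli : LinearIndependent ℂ⟮jMer⟯ (fun i => toMer N (b i)) :=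
    linearIndependent_toMer N b.linearIndependent
  by_cases hu : u ∈ Submodule.span ℂ⟮jMer⟯ (Set.range fun i => toMer N (b i))
  · obtain ⟨c, hc⟩ := (Submodule.mem_span_range_iff_exists_fun _).mp hu
    refine ⟨∑ i, sec N (c i) • b i, ?_⟩
    rw [map_sum, ← hc]
    refine Finset.sum_congr rfl fun i _ => ?_
    rw [Algebra.smul_def, Algebra.smul_def, map_mul]
    congr 1
    exact toMer_sec N (c i)
  · exfalso
    have hcons : LinearIndependent ℂ⟮jMer⟯
        (Fin.cons u (fun i => toMer N (b i)) :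
          Fin ((CongruenceSubgroup.Gamma0 N).index + 1) → Mer) :=
      linearIndependent_finCons.mpr ⟨hli, hu⟩
    refine isMFr_dependence N _ (fun i => ?_) hcons
    refine Fin.cases ?_ (fun k => ?_) i
    · simpa using h
    · simpa using isMFr_toMer N (b k)

end

end Fermat.Agent.ES.An
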