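import Fermat.Agent.S23.Descent

/-! # ES/An-DescLA : linear algebra of descent for a subspace with finitely many `Aut(ℂ)`-conjugates.

* `isAlgebraic_of_finite_orbit`: `∏_{z' ∈ orbit} (X - z')` is fixed by `Aut(ℂ)`, so has rational coefficients
  (`S23.exists_rat_of_fixed` / `exists_ringEquiv_apply_ne`).
* `exists_algebraic_vector`: as in `S23.span_rational_eq`: choose coordinates `i₁ … i_d` such that `V → ℂ^d` is bijective;
  the same coordinates work for every conjugate `σV`; the vector `e(V') ∈ V'` with coordinates `(1,0,…,0)` is unique and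
  `σ (e V) = e (σ V)`; so every coordinate of `e V` has a finite orbit. -/

set_option autoImplicit false

namespace Fermat.Agent.ES.An

open Polynomial in
theorem isAlgebraic_of_finite_orbit (z : ℂ) (h : (Set.range fun σ : ℂ ≃+* ℂ => σ z).Finite) :
    IsAlgebraic ℚ z := by
  by_contra halg
  have htr : Transcendental ℚ z := halg
  -- the orbit contains all the powers `z ^ (n + 1)`
  have hmem : ∀ n : ℕ, z ^ (n + 1) ∈ Set.range fun σ : ℂ ≃+* ℂ => σ z := by
    intro n
    have htr2 : Transcendental ℚ (z ^ (n + 1)) := htr.pow (Nat.succ_pos n)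
    obtain ⟨σ, hσ⟩ := Fermat.Agent.S23.exists_ringEquiv_complex Fermat.Agent.S23.mk_polynomial_rat_le
      (aeval (R := ℚ) z).toRingHom (aeval (R := ℚ) (z ^ (n + 1))).toRingHom
      (transcendental_iff_injective.1 htr) (transcendental_iff_injective.1 htr2)
    refine ⟨σ, ?_⟩
    have := hσ X
    simpa only [AlgHom.toRingHom_eq_coe, RingHom.coe_coe, aeval_X] using this
  have hinj : Function.Injective fun n : ℕ => z ^ (n + 1) := by
    intro n m hnm
    by_contra hne
    apply halg
    refine ⟨X ^ (n + 1) - X ^ (m + 1), ?_, ?_⟩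
    · intro h0
      have h1 : (X : ℚ[X]) ^ (n + 1) = X ^ (m + 1) := sub_eq_zero.1 h0
      have h2 := congrArg natDegree h1
      simp only [natDegree_X_pow] at h2
      omega
    · have : z ^ (n + 1) = z ^ (m + 1) := hnm
      simp [this]
  exact Set.infinite_of_injective_forall_mem hinj hmem h

theorem exists_algebraic_vector {ι : Type*} (V : Submodule ℂ (ι → ℂ)) [FiniteDimensional ℂ V]
    (hV : V ≠ ⊥)
    (hfin : (Set.range fun σ : ℂ ≃+* ℂ =>
      (fun v : ι → ℂ => fun i => σ (v i)) '' (V : Set (ι → ℂ))).Finite) :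
    ∃ v ∈ V, v ≠ 0 ∧ ∀ i, IsAlgebraic ℚ (v i) := by
  classical
  -- coordinate functionals on `V`
  let ev : ι → Module.Dual ℂ V := fun i => (LinearMap.proj i).comp V.subtype
  have hev : ∀ (i : ι) (v : V), ev i v = (v : ι → ℂ) i := fun i v => rfl
  have hspan : ⊤ ≤ Submodule.span ℂ (Set.range ev) := by
    have h0 : (Submodule.span ℂ (Set.range ev)).dualCoannihilator = ⊥ := by
      rw [eq_bot_iff]
      intro v hv
      rw [Submodule.mem_dualCoannihilator] at hv
      rw [Submodule.mem_bot]
      apply Subtype.ext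
      funext i
      exact hv (ev i) (Submodule.subset_span ⟨i, rfl⟩)
    have h1 := Subspace.dualCoannihilator_dualAnnihilator_eq
      (W := Submodule.span ℂ (Set.range ev))
    rw [h0, Submodule.dualAnnihilator_bot] at h1
    exact h1.le
  let b := Module.Basis.ofSpan hspan
  have : Fintype _ := FiniteDimensional.fintypeBasisIndex b
  have hb : ∀ j, ∃ i, ev i = b j := fun j => Module.Basis.ofSpan_subset hspan ⟨j, rfl⟩
  choose idx hidx using hb
  -- elements of `V` are determined by the chosen coordinates
  have hdet : ∀ v w : V, (∀ j, b j v = b j w) → v = w := by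
    intro v w h
    rw [← sub_eq_zero, ← Module.forall_dual_apply_eq_zero_iff ℂ]
    intro φ
    rw [← b.sum_repr φ]
    simp only [LinearMap.sum_apply, LinearMap.smul_apply, map_sub, h, sub_self, smul_zero,
      Finset.sum_const_zero]
  -- the dual basis of `V`
  let u : _ → V := fun j => (Module.evalEquiv ℂ V).symm (b.coord j)
  have hu : ∀ j j', b j' (u j) = if j' = j then 1 else 0 := by
    intro j j'
    rw [Module.apply_evalEquiv_symm_apply, Module.Basis.coord_apply, Module.Basis.repr_self,
      Finsupp.single_apply]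
  -- the index set is nonempty
  obtain ⟨j0⟩ : Nonempty _ := by
    by_contra hemp
    rw [not_nonempty_iff] at hemp
    apply hV
    rw [eq_bot_iff]
    intro v hv
    have := hdet ⟨v, hv⟩ 0 (fun j => (hemp.false j).elim)
    simpa using congrArg Subtype.val this
  have hu0 : ∀ j', ((u j0 : V) : ι → ℂ) (idx j') = if j' = j0 then 1 else 0 := by
    intro j'
    have h2 := hu j0 j'
    rwa [← hidx j', hev] at h2
  let F : (ℂ ≃+* ℂ) → Set (ι → ℂ) := fun σ =>
    (fun v : ι → ℂ => fun i => σ (v i)) '' (V : Set (ι → ℂ))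
  let G : (ℂ ≃+* ℂ) → (ι → ℂ) := fun σ i => σ (((u j0 : V) : ι → ℂ) i)
  have hfac : Function.FactorsThrough G F := by
    intro σ τ hστ
    -- `G τ ∈ F τ = F σ`
    have h1 : G τ ∈ F σ := by
      rw [hστ]
      exact ⟨_, (u j0).2, rfl⟩
    obtain ⟨w, hw, hwG⟩ := h1
    have h2 : (⟨w, hw⟩ : V) = u j0 := by
      apply hdet
      intro j'
      rw [← hidx j', hev, hev]
      show w (idx j') = _
      have h3 : σ (w (idx j')) = τ (((u j0 : V) : ι → ℂ) (idx j')) := congrFun hwG (idx j')
      rw [hu0 j'] at h3 ⊢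
      apply σ.injective
      rw [h3]
      split_ifs <;> simp
    have h4 : w = ((u j0 : V) : ι → ℂ) := congrArg Subtype.val h2
    rw [← hwG, h4]
  have hGfin : (Set.range G).Finite := by
    have h1 := hfac.extend_comp (fun _ => 0)
    rw [← h1, Set.range_comp]
    exact hfin.image _
  refine ⟨u j0, (u j0).2, ?_, fun i => ?_⟩
  · intro h0
    have h1 := hu0 j0
    rw [h0] at h1
    simp at h1
  · apply isAlgebraic_of_finite_orbit
    have h1 : (Set.range fun σ : ℂ ≃+* ℂ => σ (((u j0 : V) : ι → ℂ) i)) =
        (fun v : ι → ℂ => v i) '' Set.range G := by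
      rw [← Set.range_comp]
      rfl
    rw [h1]
    exact hGfin.image _

end Fermat.Agent.ES.An
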