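import Fermat.Agent.ES.An.CharC

/-! # ES/An-DescA : the `Aut(ℂ)`-conjugates of `f ∈ D_m(F_ℂ)` fall into finitely many classes mod `m`-th powers.

`σ f ∈ D_m` by the Prelude's `SemilinearAut.ord_smul` (`arithmeticGalois`); it has a character of exponent `m`
(`exists_hasCharC`); there are finitely many of those (`finite_chars`); equal characters ⇒ same class
(`HasCharC.exists_eq_mul_pow`). -/

set_option autoImplicit false

open AlgebraicCurve ModularCurve UpperHalfPlane
open scoped MatrixGroups IntermediateField Manifold ModularForm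

namespace Fermat.Agent.ES.An

open Fermat.Agent.S24

noncomputable section

variable {N : ℕ} [NeZero N]

theorem divBy_arithmeticRingAut (m : ℕ) (f : FC N) (hf : DivBy ℂ m f) (σ : ℂ ≃ₐ[ℚ] ℂ) :
    DivBy ℂ m (arithmeticRingAut (modularFunctionFieldFull N) σ f) := by
  intro P
  have h := SemilinearAut.ord_smul (arithmeticGalois (modularFunctionFieldFull N) σ)
    ((arithmeticGalois (modularFunctionFieldFull N) σ)⁻¹ • P) f
  rw [smul_inv_smul] at h
  have h2 : arithmeticGalois (modularFunctionFieldFull N) σ • f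
      = arithmeticRingAut (modularFunctionFieldFull N) σ f := rfl
  rw [← h2, h]
  exact hf _

theorem exists_finite_reps (m : ℕ) (hm : 0 < m) (f : FC N) (hf0 : f ≠ 0) (hf : DivBy ℂ m f) :
    ∃ S : Finset (FC N), ∀ σ : ℂ ≃ₐ[ℚ] ℂ, ∃ s ∈ S, ∃ h : FC N, h ≠ 0 ∧
      arithmeticRingAut (modularFunctionFieldFull N) σ f = s * h ^ m := by
  classical
  have hfin := finite_chars (N := N) m hm
  let rep : (CongruenceSubgroup.Gamma0 N →* ℂˣ) → FC N := fun χ =>
    if h : ∃ g : FC N, HasCharC N m g χ then h.choose else 1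
  refine ⟨hfin.toFinset.image rep, fun σ => ?_⟩
  set g := arithmeticRingAut (modularFunctionFieldFull N) σ f with hg
  have hg0 : g ≠ 0 := by
    rw [hg, Ne, map_eq_zero]
    exact hf0
  obtain ⟨χ, hχ, hχm⟩ := exists_hasCharC m hm g hg0 (divBy_arithmeticRingAut m f hf σ)
  have hex : ∃ g : FC N, HasCharC N m g χ := ⟨g, hχ⟩
  have hrep : rep χ = hex.choose := dif_pos hex
  have hs := hex.choose_spec
  rw [← hrep] at hs
  exact ⟨rep χ, Finset.mem_image.mpr ⟨χ, hfin.mem_toFinset.mpr hχm, rfl⟩,
    HasCharC.exists_eq_mul_pow hm hs hχ⟩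

end

end Fermat.Agent.ES.An
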