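import Fermat.Agent.ES.An.Degree
import Fermat.Agent.ES.An.Eis
import Fermat.Agent.ES.An.MkMF

/-! # ES/An-EisMer : a meromorphic function with prescribed good character of finite order.

`w := E_ψ / E_1` (`exists_twisted_eisenstein` for `ψ` and for `1`).
* `IsChar w ψ`: the automorphy factors cancel.
* `cmp (slp g) w = (E_ψ ∣[4] g) / (E_1 ∣[4] g)`, and `E_ψ ∣[4] g ∈ HolCusp N`: holomorphic, bounded at `i∞`, and
  `N`-periodic since `g T^N g⁻¹ ∈ Γ(N) ⊆ Γ₀(N)` has trace `2`, so `ψ` kills it.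
* `E_ψ ^ m`, `E_1 ^ m` are modular forms of weight `4 m` on `Γ₀(N)`, so `w ^ m` is `IsMFr`: `mem_range_of_isMFr`. -/

set_option autoImplicit false

open AlgebraicCurve ModularCurve UpperHalfPlane
open scoped MatrixGroups IntermediateField Manifold ModularForm

namespace Fermat.Agent.ES.An

open Fermat.Agent.S24

noncomputable section

theorem isGood_one (N : ℕ) : IsGood (1 : CongruenceSubgroup.Gamma0 N →* ℂˣ) :=
  ⟨fun _ => by simp, fun _ _ => rfl⟩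

theorem coe_conj_T_pow (n : ℤ) (g : SL(2, ℤ)) :
    ((g * ModularGroup.T ^ n * g⁻¹ : SL(2, ℤ)) : Matrix (Fin 2) (Fin 2) ℤ)
      = !![1 - g 0 0 * g 1 0 * n, g 0 0 ^ 2 * n; -(g 1 0 ^ 2 * n), 1 + g 0 0 * g 1 0 * n] := by
  have hdet : g 0 0 * g 1 1 - g 0 1 * g 1 0 = 1 := by
    have := g.det_coe
    rwa [Matrix.det_fin_two] at this
  rw [Matrix.SpecialLinearGroup.coe_mul, Matrix.SpecialLinearGroup.coe_mul,
    ModularGroup.coe_T_zpow, Matrix.SpecialLinearGroup.coe_inv, Matrix.adjugate_fin_two]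
  ext i j
  fin_cases i <;> fin_cases j <;>
    simp [Matrix.mul_apply, Fin.sum_univ_two] <;> first | ring1 | linear_combination hdet

/-- `g T^N g⁻¹ ∈ Γ₀(N)`. -/
theorem conj_T_pow_mem (N : ℕ) (g : SL(2, ℤ)) :
    g * ModularGroup.T ^ (N : ℤ) * g⁻¹ ∈ CongruenceSubgroup.Gamma0 N := by
  rw [CongruenceSubgroup.Gamma0_mem]
  have h := congrFun (congrFun (coe_conj_T_pow (N : ℤ) g) 1) 0
  rw [h]
  simp

theorem trace_conj_T_pow (n : ℤ) (g : SL(2, ℤ)) :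
    ((g * ModularGroup.T ^ n * g⁻¹ : SL(2, ℤ)) : Matrix (Fin 2) (Fin 2) ℤ).trace = 2 := by
  rw [coe_conj_T_pow, Matrix.trace_fin_two_of]
  ring

variable (N : ℕ) [NeZero N]

/-- all `SL₂(ℤ)`-translates of a twisted form are in `HolCusp N`. -/
theorem slash_mem_HolCusp (ψ : CongruenceSubgroup.Gamma0 N →* ℂˣ) (hψ : IsGood ψ) (k : ℤ) (E : Hol)
    (hsl : ∀ γ : CongruenceSubgroup.Gamma0 N,
      ((E : ℍ → ℂ) ∣[k] (γ : SL(2, ℤ))) = ((ψ γ : ℂˣ) : ℂ) • (E : ℍ → ℂ))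
    (hb : ∀ g : SL(2, ℤ), IsBoundedAtImInfty ((E : ℍ → ℂ) ∣[k] g)) (g : SL(2, ℤ)) :
    ((E : ℍ → ℂ) ∣[k] g) ∈ HolCusp N := by
  refine ⟨mdiff_slash E.2 k g, periodic_of_vadd _ _ fun τ => ?_, 0, ?_⟩
  · set γ' : CongruenceSubgroup.Gamma0 N := ⟨_, conj_T_pow_mem N g⟩ with hγ'
    have h1 : ψ γ' = 1 := hψ.2 γ' (by
      rw [hγ']
      show |((g * ModularGroup.T ^ (N : ℤ) * g⁻¹ : SL(2, ℤ)) : Matrix (Fin 2) (Fin 2) ℤ).trace| ≤ 2
      rw [trace_conj_T_pow]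
      norm_num)
    have h2 : ((E : ℍ → ℂ) ∣[k] g) ∣[k] (ModularGroup.T ^ (N : ℤ)) = (E : ℍ → ℂ) ∣[k] g := by
      rw [← SlashAction.slash_mul]
      have h3 : g * ModularGroup.T ^ (N : ℤ) = (γ' : SL(2, ℤ)) * g := by
        rw [hγ']
        group
      rw [h3, SlashAction.slash_mul, hsl γ', h1]
      simp
    have h4 := congrFun h2 τ
    rw [ModularForm.SL_slash_apply, modular_T_zpow_smul] at h4
    have h5 : denom (ModularGroup.T ^ (N : ℤ) : SL(2, ℤ)) τ = 1 := by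
      have e10 : (ModularGroup.T ^ (N : ℤ) : SL(2, ℤ)) 1 0 = 0 := by
        show (ModularGroup.T ^ (N : ℤ) : SL(2, ℤ)).1 1 0 = 0
        rw [ModularGroup.coe_T_zpow]; rfl
      have e11 : (ModularGroup.T ^ (N : ℤ) : SL(2, ℤ)) 1 1 = 1 := by
        show (ModularGroup.T ^ (N : ℤ) : SL(2, ℤ)).1 1 1 = 1
        rw [ModularGroup.coe_T_zpow]; rfl
      rw [ModularGroup.denom_apply, e10, e11]
      simp
    rw [h5, one_zpow, mul_one] at h4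
    simpa using h4
  · simpa using hb g

theorem exists_char_fun (ψ : CongruenceSubgroup.Gamma0 N →* ℂˣ) (hψ : IsGood ψ)
    (m : ℕ) (hm : 0 < m) (hψm : ψ ^ m = 1) :
    ∃ (w : Mer) (f : FC N), w ≠ 0 ∧ IsChar w ψ ∧
      (∀ g : SL(2, ℤ), cmp (slp g) w ∈ MerCusp N) ∧ w ^ m = toMer N f := by
  obtain ⟨E, hE0, hEsl, hEb⟩ := exists_twisted_eisenstein N ψ hψ
  obtain ⟨E1, hE10, hE1sl, hE1b⟩ := exists_twisted_eisenstein N 1 (isGood_one N)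
  have hinj := IsFractionRing.injective Hol Mer
  have hEM : algebraMap Hol Mer E ≠ 0 := by
    rw [Ne, map_eq_zero_iff _ hinj]; exact hE0
  have hE1M : algebraMap Hol Mer E1 ≠ 0 := by
    rw [Ne, map_eq_zero_iff _ hinj]; exact hE10
  -- modularity of the `m`-th powers
  have hpow : ∀ (χ : CongruenceSubgroup.Gamma0 N →* ℂˣ) (G : Hol), χ ^ m = 1 →
      (∀ γ : CongruenceSubgroup.Gamma0 N,
        ((G : ℍ → ℂ) ∣[(4 : ℤ)] (γ : SL(2, ℤ))) = ((χ γ : ℂˣ) : ℂ) • (G : ℍ → ℂ)) →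
      (∀ g : SL(2, ℤ), IsBoundedAtImInfty ((G : ℍ → ℂ) ∣[(4 : ℤ)] g)) →
      Sturm.IsMF N (4 * (m : ℤ)) (((G ^ m : Hol) : ℍ → ℂ)) := by
    intro χ G hχ hsl hb
    refine isMF_of N _ _ (G ^ m : Hol).2 (fun γ => ?_) (fun g => ?_)
    · show ((G : ℍ → ℂ) ^ m) ∣[4 * (m : ℤ)] (γ : SL(2, ℤ)) = (G : ℍ → ℂ) ^ m
      rw [slash_pow, hsl γ, smul_pow]
      have h1 : (((χ γ : ℂˣ) : ℂ)) ^ m = 1 := by
        have := congrArg (fun c : ℂˣ => (c : ℂ)) (DFunLike.congr_fun hχ γ)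
        simpa using this
      rw [h1, one_smul]
    · show IsBoundedAtImInfty (((G : ℍ → ℂ) ^ m) ∣[4 * (m : ℤ)] g)
      rw [slash_pow]
      exact bdd_pow (hb g) m
  have hMFr : IsMFr N ((algebraMap Hol Mer E / algebraMap Hol Mer E1) ^ m) :=
    ⟨4 * (m : ℤ), E ^ m, E1 ^ m, hpow ψ E hψm hEsl hEb, hpow 1 E1 (by ext γ; simp) hE1sl hE1b,
      pow_ne_zero m hE10, by rw [div_pow, map_pow, map_pow]⟩
  obtain ⟨f, hf⟩ := mem_range_of_isMFr N _ hMFr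
  refine ⟨algebraMap Hol Mer E / algebraMap Hol Mer E1, f, div_ne_zero hEM hE1M, fun γ => ?_,
    fun g => ?_, hf.symm⟩
  · rw [cmp_div_eq 4 (γ : SL(2, ℤ)) E E1 hE10]
    have h1 : slHol 4 (γ : SL(2, ℤ)) E = ((ψ γ : ℂˣ) : ℂ) • E := Subtype.ext (hEsl γ)
    have h2 : slHol 4 (γ : SL(2, ℤ)) E1 = E1 := Subtype.ext (by
      rw [coe_slHol, hE1sl γ]
      simp)
    rw [h1, h2, Algebra.smul_def, map_mul, Algebra.smul_def, mul_div_assoc,
      ← IsScalarTower.algebraMap_apply]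
  · rw [cmp_div_eq 4 g E E1 hE10, mem_MerCusp_iff]
    refine ⟨⟨_, slash_mem_HolCusp N ψ hψ 4 E hEsl hEb g⟩,
      ⟨_, slash_mem_HolCusp N 1 (isGood_one N) 4 E1 hE1sl hE1b g⟩, ?_, rfl⟩
    intro h
    have h' : ((E1 : ℍ → ℂ) ∣[(4 : ℤ)] g) = 0 := congrArg Subtype.val h
    exact slHol_ne_zero 4 g hE10 (Subtype.ext h')

end

end Fermat.Agent.ES.An
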