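import Fermat.Agent.ES.An.Basic
import Fermat.Agent.ES.B.Formal

/-! # ES/An-HeckeLau : `q`-expansion of the multiplicative Hecke operator.

`exists_comp`: for `α ∈ GL₂(ℝ)⁺` acting by `τ ↦ (A τ + B) / D` and `h A = e D`, `f ∈ HolCusp 1`:
`f ∘ α ∈ HolCusp h` with `q_h`-expansion `V_e (twist (exp (2πi B / D)) (laurent 1 f))`.
-/

set_option autoImplicit false
set_option linter.unusedSectionVars false

open AlgebraicCurve ModularCurve UpperHalfPlane Filter Topology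
open scoped MatrixGroups IntermediateField Manifold ModularForm

namespace Fermat.Agent.ES.An

open Fermat.Agent.S24 Fermat.Agent.S24.Laurent

noncomputable section

namespace HeckeLau

section General

variable (h : ℕ) [NeZero h]

theorem coeff_laurent (f : HolCusp h) {m : ℕ}
    (hm : NB (h : ℝ) ((f : ℍ → ℂ) * qq (h : ℝ) ^ m)) (n : ℕ) :
    (laurent h f).coeff ((n : ℤ) - m)
      = (qExpansion (h : ℝ) ((f : ℍ → ℂ) * qq (h : ℝ) ^ m)).coeff n := by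
  rw [laurent_eq h f hm]
  unfold Lm
  rw [HahnSeries.coeff_single_mul, one_mul, show ((n : ℤ) - m - -(m : ℤ)) = (n : ℤ) by ring,
    HahnSeries.ofPowerSeries_apply_coeff]

theorem coeff_laurent_of_lt (f : HolCusp h) {m : ℕ}
    (hm : NB (h : ℝ) ((f : ℍ → ℂ) * qq (h : ℝ) ^ m)) {k : ℤ} (hk : k < -(m : ℤ)) :
    (laurent h f).coeff k = 0 := by
  rw [laurent_eq h f hm]
  unfold Lm
  rw [HahnSeries.coeff_single_mul, one_mul, PowerSeries.coeff_coe, if_pos (by linarith)]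

theorem laurent_eq_of_hasSum (f : HolCusp h) {m : ℕ}
    (hm : NB (h : ℝ) ((f : ℍ → ℂ) * qq (h : ℝ) ^ m)) (y : LaurentSeries ℂ)
    (hy0 : ∀ k : ℤ, k < -(m : ℤ) → y.coeff k = 0)
    (hy : ∀ τ : ℍ, HasSum (fun n : ℕ => y.coeff ((n : ℤ) - m) •
      Function.Periodic.qParam (h : ℝ) (τ : ℂ) ^ n) (((f : ℍ → ℂ) * qq (h : ℝ) ^ m) τ)) :
    laurent h f = y := by
  ext k
  by_cases hk : k < -(m : ℤ)
  · rw [coeff_laurent_of_lt h f hm hk, hy0 k hk]
  · obtain ⟨n, rfl⟩ : ∃ n : ℕ, k = (n : ℤ) - m := ⟨(k + m).toNat, by omega⟩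
    rw [coeff_laurent h f hm n]
    exact (coeff_unique (hpos h) (hm.analytic (hpos h)) hy n).symm

end General

/-- `exp (2πi B / D)` as a unit. -/
def expU (B D : ℕ) : ℂˣ :=
  Units.mk0 (Complex.exp (2 * Real.pi * Complex.I * B / D)) (Complex.exp_ne_zero _)

theorem coe_expU (B D : ℕ) : ((expU B D : ℂˣ) : ℂ) = Complex.exp (2 * Real.pi * Complex.I * B / D) :=
  rfl

theorem expU_zero (D : ℕ) : expU 0 D = 1 := by
  apply Units.ext
  simp [coe_expU]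


section Comp

variable (α : GLp) (A D B h e : ℕ) [NeZero h] [NeZero e]

theorem qq_smul (hD : D ≠ 0) (hAD : h * A = e * D)
    (hα : ∀ τ : ℍ, ((α • τ : ℍ) : ℂ) = ((A : ℂ) * τ + B) / D) (τ : ℍ) :
    qq ((1 : ℕ) : ℝ) (α • τ) = (expU B D : ℂ) * qq (h : ℝ) τ ^ e := by
  have hD' : (D : ℂ) ≠ 0 := by exact_mod_cast hD
  have hh' : (h : ℂ) ≠ 0 := by exact_mod_cast NeZero.ne h
  have hAD' : (h : ℂ) * A = e * D := by exact_mod_cast hAD
  simp only [qq, Function.Periodic.qParam, coe_expU, hα, ← Complex.exp_nat_mul, ← Complex.exp_add]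
  congr 1
  push_cast
  field_simp
  linear_combination (τ : ℂ) * hAD'

theorem smul_vadd (hD : D ≠ 0) (hAD : h * A = e * D)
    (hα : ∀ τ : ℍ, ((α • τ : ℍ) : ℂ) = ((A : ℂ) * τ + B) / D) (τ : ℍ) :
    α • ((h : ℝ) +ᵥ τ) = (e : ℝ) +ᵥ (α • τ) := by
  have hD' : (D : ℂ) ≠ 0 := by exact_mod_cast hD
  have hAD' : (h : ℂ) * A = e * D := by exact_mod_cast hAD
  apply UpperHalfPlane.ext
  rw [coe_vadd, hα, hα, coe_vadd]
  push_cast
  field_simp
  linear_combination hAD'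

theorem tendsto_smul (hD : D ≠ 0) (hA : A ≠ 0)
    (hα : ∀ τ : ℍ, ((α • τ : ℍ) : ℂ) = ((A : ℂ) * τ + B) / D) :
    Tendsto (fun τ : ℍ => α • τ) atImInfty atImInfty := by
  rw [atImInfty, tendsto_comap_iff]
  have hA' : (0 : ℝ) < A := by exact_mod_cast Nat.pos_of_ne_zero hA
  have hD' : (0 : ℝ) < D := by exact_mod_cast Nat.pos_of_ne_zero hD
  have : (UpperHalfPlane.im ∘ fun τ : ℍ => α • τ) = fun τ : ℍ => ((A : ℝ) / D) * τ.im := by
    funext τ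
    show ((α • τ : ℍ) : ℂ).im = _
    rw [hα, Complex.div_natCast_im]
    simp
    ring
  rw [this]
  exact (tendsto_comap).const_mul_atTop (div_pos hA' hD')

theorem apply_natCast_vadd {F : ℍ → ℂ}
    (hF : Function.Periodic (F ∘ ofComplex) ((((1 : ℕ) : ℝ)) : ℂ)) (n : ℕ) (τ : ℍ) :
    F ((n : ℝ) +ᵥ τ) = F τ := by
  apply vadd_of_periodic
  have := hF.nat_mul n
  simpa using this

theorem NB_comp (hD : D ≠ 0) (hAD : h * A = e * D)
    (hα : ∀ τ : ℍ, ((α • τ : ℍ) : ℂ) = ((A : ℂ) * τ + B) / D) {F : ℍ → ℂ}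
    (hF : NB ((1 : ℕ) : ℝ) F) : NB (h : ℝ) (fun τ => F (α • τ)) := by
  have hA : A ≠ 0 := by
    rintro rfl
    rw [mul_zero] at hAD
    exact (mul_ne_zero (NeZero.ne e) hD) hAD.symm
  refine ⟨(cmpHol α ⟨F, hF.hol⟩).2, periodic_of_vadd fun τ => ?_,
    hF.bdd.comp_tendsto (tendsto_smul α A D B hD hA hα)⟩
  rw [smul_vadd α A D B h e hD hAD hα, apply_natCast_vadd hF.per]

theorem exists_comp (hD : D ≠ 0) (hAD : h * A = e * D)
    (hα : ∀ τ : ℍ, ((α • τ : ℍ) : ℂ) = ((A : ℂ) * τ + B) / D) (f : HolCusp 1) :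
    ∃ g : HolCusp h, (g : ℍ → ℂ) = (fun τ => (f : ℍ → ℂ) (α • τ)) ∧
      laurent h g = Vq ℂ e (twist (expU B D) (laurent 1 f)) := by
  obtain ⟨m, hm⟩ := exists_NB f
  set F : ℍ → ℂ := (f : ℍ → ℂ) * qq ((1 : ℕ) : ℝ) ^ m with hFdef
  set ω : ℂˣ := expU B D with hω
  have hFσ := NB_comp α A D B h e hD hAD hα hm
  have hω0 : ((ω : ℂ)) ^ m ≠ 0 := pow_ne_zero _ ω.ne_zero
  have hkey : (fun τ : ℍ => (f : ℍ → ℂ) (α • τ)) * qq (h : ℝ) ^ (e * m)
      = (fun _ : ℍ => (((ω : ℂ)) ^ m)⁻¹) * fun τ => F (α • τ) := by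
    funext τ
    simp only [Pi.mul_apply, Pi.pow_apply, hFdef, qq_smul α A D B h e hD hAD hα τ, mul_pow,
      ← pow_mul]
    field_simp
    rw [hω]
  have hNB : NB (h : ℝ) ((fun τ : ℍ => (f : ℍ → ℂ) (α • τ)) * qq (h : ℝ) ^ (e * m)) := by
    rw [hkey]
    exact (NB.const _).mul hFσ
  have hmem : (fun τ : ℍ => (f : ℍ → ℂ) (α • τ)) ∈ HolCusp h := by
    refine ⟨(cmpHol α ⟨(f : ℍ → ℂ), f.2.1⟩).2, periodic_of_vadd fun τ => ?_, e * m, hNB.bdd⟩
    rw [smul_vadd α A D B h e hD hAD hα, apply_natCast_vadd f.2.2.1]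
  refine ⟨⟨_, hmem⟩, rfl, ?_⟩
  have he0 : 0 < e := Nat.pos_of_ne_zero (NeZero.ne e)
  apply laurent_eq_of_hasSum h ⟨_, hmem⟩ hNB
  · intro k hk
    by_cases hek : (e : ℤ) ∣ k
    · obtain ⟨k', rfl⟩ := hek
      rw [qExpand_coeff_mul, twist_coeff, coeff_laurent_of_lt 1 f hm, mul_zero]
      push_cast at hk
      have he0' : (0 : ℤ) < e := by exact_mod_cast he0
      nlinarith
    · exact qExpand_coeff_of_not_dvd e _ hek
  · intro τ
    show HasSum _ (((fun τ : ℍ => (f : ℍ → ℂ) (α • τ)) * qq (h : ℝ) ^ (e * m)) τ)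
    rw [hkey]
    have h1 := (hasSum_qExpansion (hpos 1) hm.per hm.hol hm.bdd (α • τ)).mul_left
      ((((ω : ℂ)) ^ m)⁻¹)
    have hinj : Function.Injective (fun n : ℕ => e * n) := fun a b hab =>
      Nat.eq_of_mul_eq_mul_left he0 hab
    rw [← hinj.hasSum_iff]
    · have h2 : ((fun n : ℕ => (Vq ℂ e (twist ω (laurent 1 f))).coeff ((n : ℤ) - ((e * m : ℕ) : ℤ)) •
          Function.Periodic.qParam (h : ℝ) (τ : ℂ) ^ n) ∘ fun n : ℕ => e * n)
          = fun i => (((ω : ℂ)) ^ m)⁻¹ * ((qExpansion ((1 : ℕ) : ℝ) F).coeff i •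
            Function.Periodic.qParam ((1 : ℕ) : ℝ) ((α • τ : ℍ) : ℂ) ^ i) := by
        funext n
        have hq := qq_smul α A D B h e hD hAD hα τ
        simp only [qq] at hq
        simp only [Function.comp_apply]
        rw [hq, show (((e * n : ℕ) : ℤ) - ((e * m : ℕ) : ℤ)) = (e : ℤ) * ((n : ℤ) - m) by
          push_cast; ring, qExpand_coeff_mul, twist_coeff, coeff_laurent 1 f hm n, zpow_sub,
          zpow_natCast, zpow_natCast, Units.val_mul, Units.val_inv_eq_inv_val,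
          Units.val_pow_eq_pow_val, Units.val_pow_eq_pow_val, mul_pow, pow_mul]
        simp only [smul_eq_mul]
        ring
      rw [h2]
      exact h1
    · intro N hN
      have : ¬ (e : ℤ) ∣ ((N : ℤ) - ((e * m : ℕ) : ℤ)) := by
        intro hdvd
        apply hN
        have h2 : (e : ℤ) ∣ (N : ℤ) := by
          have h3 : (e : ℤ) ∣ ((e * m : ℕ) : ℤ) := by push_cast; exact dvd_mul_right _ _
          have := dvd_add hdvd h3
          simpa using this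
        obtain ⟨n, hn⟩ := Int.natCast_dvd_natCast.mp h2
        exact ⟨n, hn.symm⟩
      rw [qExpand_coeff_of_not_dvd e _ this, zero_smul]

end Comp


section Assembly

variable (ℓ : ℕ) [NeZero ℓ]

theorem isPrimitiveRoot_exp : IsPrimitiveRoot (Complex.exp (2 * Real.pi * Complex.I / ℓ)) ℓ :=
  Complex.isPrimitiveRoot_exp ℓ (NeZero.ne ℓ)

theorem coe_expU_eq_pow (j : ℕ) :
    ((expU j ℓ : ℂˣ) : ℂ) = Complex.exp (2 * Real.pi * Complex.I / ℓ) ^ j := by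
  rw [coe_expU, ← Complex.exp_nat_mul]
  congr 1
  ring

theorem expU_mem (j : ℕ) : expU j ℓ ∈ rootsOfUnity ℓ ℂ := by
  rw [mem_rootsOfUnity]
  apply Units.ext
  rw [Units.val_pow_eq_pow_val, coe_expU_eq_pow, ← pow_mul, Nat.mul_comm j ℓ, pow_mul,
    (isPrimitiveRoot_exp ℓ).pow_eq_one, one_pow, Units.val_one]

theorem bijective_expU :
    Function.Bijective (fun j : ZMod ℓ => (⟨expU j.val ℓ, expU_mem ℓ j.val⟩ : rootsOfUnity ℓ ℂ)) := by
  constructor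
  · intro a b hab
    have h1 : ((expU a.val ℓ : ℂˣ) : ℂ) = ((expU b.val ℓ : ℂˣ) : ℂ) :=
      congrArg (fun z : rootsOfUnity ℓ ℂ => ((z : ℂˣ) : ℂ)) hab
    rw [coe_expU_eq_pow, coe_expU_eq_pow] at h1
    exact ZMod.val_injective ℓ
      ((isPrimitiveRoot_exp ℓ).pow_inj (ZMod.val_lt a) (ZMod.val_lt b) h1)
  · intro z
    have hz : ((z : ℂˣ) : ℂ) ^ ℓ = 1 := by
      have := (mem_rootsOfUnity _ _).1 z.2
      rw [← Units.val_pow_eq_pow_val, this, Units.val_one]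
    obtain ⟨i, hi, hiz⟩ := (isPrimitiveRoot_exp ℓ).eq_pow_of_pow_eq_one hz
    refine ⟨(i : ZMod ℓ), ?_⟩
    apply Subtype.ext
    apply Units.ext
    show ((expU (i : ZMod ℓ).val ℓ : ℂˣ) : ℂ) = _
    rw [ZMod.val_natCast_of_lt hi, coe_expU_eq_pow, hiz]

theorem prod_twist_expU (x : LaurentSeries ℂ) :
    ∏ j : ZMod ℓ, twist (expU j.val ℓ) x = twistProd ℓ x := by
  unfold twistProd
  exact Fintype.prod_bijective _ (bijective_expU ℓ) _ _ (fun _ => rfl)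

/-- an element of `HolCusp ℓ` whose expansion is supported on multiples of `ℓ` comes from
`HolCusp 1`. -/
theorem exists_descend (P : HolCusp ℓ)
    (hP : ∀ n : ℤ, ¬ (ℓ : ℤ) ∣ n → (laurent ℓ P).coeff n = 0) :
    ∃ P' : HolCusp 1, (P' : ℍ → ℂ) = (P : ℍ → ℂ) ∧ Vq ℂ ℓ (laurent 1 P') = laurent ℓ P := by
  have htr : (⟨_, translate_mem ℓ P⟩ : HolCusp ℓ) = P := by
    apply laurent_injective ℓ
    ext k
    rw [laurent_translate]
    by_cases hk : (ℓ : ℤ) ∣ k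
    · rw [((isPrimitiveRoot_exp ℓ).zpow_eq_one_iff_dvd k).2 hk, one_mul]
    · rw [hP k hk, mul_zero]
  have hper : ∀ τ : ℍ, (P : ℍ → ℂ) ((1 : ℝ) +ᵥ τ) = (P : ℍ → ℂ) τ := fun τ =>
    congrFun (congrArg Subtype.val htr) τ
  obtain ⟨m, hm⟩ := P.2.2.2
  have hq : ∀ τ : ℍ, qh 1 τ = qh ℓ τ ^ ℓ := by
    intro τ
    have hℓ : (ℓ : ℂ) ≠ 0 := by exact_mod_cast NeZero.ne ℓ
    simp only [qh, Function.Periodic.qParam, ← Complex.exp_nat_mul]
    congr 1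
    push_cast
    field_simp
  have hmem : (P : ℍ → ℂ) ∈ HolCusp 1 := by
    refine ⟨P.2.1, ?_, m, ?_⟩
    · apply periodic_of_vadd
      intro τ
      simpa using hper τ
    · have h1 := hm.mul (bdd_qh_pow ℓ ((ℓ - 1) * m))
      have he : (fun τ : ℍ => (P : ℍ → ℂ) τ * qh 1 τ ^ m)
          = (fun τ => (P : ℍ → ℂ) τ * qh ℓ τ ^ m) * fun τ => qh ℓ τ ^ ((ℓ - 1) * m) := by
        funext τ
        simp only [Pi.mul_apply, hq, ← pow_mul]
        rw [mul_assoc, ← pow_add]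
        congr 2
        have : 1 ≤ ℓ := Nat.pos_of_ne_zero (NeZero.ne ℓ)
        obtain ⟨c, rfl⟩ := Nat.exists_eq_add_of_le this
        simp
        ring
      rw [he]
      exact h1
  refine ⟨⟨_, hmem⟩, rfl, ?_⟩
  obtain ⟨g, hg, hgl⟩ := exists_comp (1 : GLp) 1 1 0 ℓ ℓ one_ne_zero rfl
    (fun τ => by simp) ⟨_, hmem⟩
  have hgP : g = P := by
    apply Subtype.ext
    rw [hg]
    funext τ
    simp
  rw [hgP, expU_zero, twist_one] at hgl
  exact hgl.symm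

variable (αinf : GLp) (α : ZMod ℓ → GLp)

/-- the holomorphic case. -/
theorem exists_hecke (hinf : ∀ τ : ℍ, ((αinf • τ : ℍ) : ℂ) = (ℓ : ℂ) * τ)
    (hα : ∀ (j : ZMod ℓ) (τ : ℍ), ((α j • τ : ℍ) : ℂ) = ((τ : ℂ) + (j.val : ℕ)) / ℓ)
    (a : HolCusp 1) :
    ∃ g : HolCusp 1, cuspIncl 1 g
        = cmpHol αinf (cuspIncl 1 a) * ∏ j : ZMod ℓ, cmpHol (α j) (cuspIncl 1 a) ∧
      laurent 1 g = heckeSer ℓ (laurent 1 a) := by
  obtain ⟨g0, hg0, hg0l⟩ := exists_comp αinf ℓ 1 0 1 ℓ one_ne_zero (by ring)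
    (fun τ => by rw [hinf]; simp) a
  have h1 : ∀ j : ZMod ℓ, ∃ g : HolCusp ℓ, (g : ℍ → ℂ) = (fun τ => (a : ℍ → ℂ) (α j • τ)) ∧
      laurent ℓ g = Vq ℂ 1 (twist (expU j.val ℓ) (laurent 1 a)) := fun j =>
    exists_comp (α j) 1 ℓ j.val ℓ 1 (NeZero.ne ℓ) (by ring) (fun τ => by rw [hα]; simp) a
  choose g hg hgl using h1
  have hPl : laurent ℓ (∏ j, g j) = twistProd ℓ (laurent 1 a) := by
    rw [map_prod, ← prod_twist_expU]
    refine Finset.prod_congr rfl fun j _ => ?_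
    rw [hgl, qExpand_one_apply]
  obtain ⟨P', hP', hP'l⟩ := exists_descend ℓ (∏ j, g j) (fun n hn => by
    rw [hPl]; exact twistProd_coeff_of_not_dvd ℓ (isPrimitiveRoot_exp ℓ) _ hn)
  refine ⟨g0 * P', ?_, ?_⟩
  · apply Subtype.ext
    funext τ
    have e1 : ((∏ j, g j : HolCusp ℓ) : ℍ → ℂ) τ = ∏ j, (g j : ℍ → ℂ) τ := by
      have := congrFun (map_prod (HolCusp ℓ).val g Finset.univ) τ
      rw [Finset.prod_apply] at this
      exact this
    have e2 : ((∏ j : ZMod ℓ, cmpHol (α j) (cuspIncl 1 a) : Hol) : ℍ → ℂ) τ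
        = ∏ j, (cmpHol (α j) (cuspIncl 1 a) : ℍ → ℂ) τ := by
      have := congrFun (map_prod Hol.val (fun j => cmpHol (α j) (cuspIncl 1 a)) Finset.univ) τ
      rw [Finset.prod_apply] at this
      exact this
    show (g0 : ℍ → ℂ) τ * (P' : ℍ → ℂ) τ = (cmpHol αinf (cuspIncl 1 a) : ℍ → ℂ) τ
      * ((∏ j : ZMod ℓ, cmpHol (α j) (cuspIncl 1 a) : Hol) : ℍ → ℂ) τ
    rw [hP', e1, e2, hg0]
    congr 1
    refine Finset.prod_congr rfl fun j _ => ?_
    rw [hg]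
    rfl
  · rw [map_mul, hg0l, expU_zero, twist_one, heckeSer]
    congr 1
    apply Vq_injective (R := ℂ) ℓ
    rw [hP'l, hPl, Vq_normSer ℓ (isPrimitiveRoot_exp ℓ)]

theorem hasLau_of_holCusp (g : HolCusp 1) :
    HasLau 1 (algebraMap Hol Mer (cuspIncl 1 g)) (laurent 1 g) :=
  ⟨algebraMap _ _ g, cuspToMer_algebraMap 1 g, lauC_algebraMap 1 g⟩

end Assembly

end HeckeLau

open HeckeLau in
/-- `q`-expansion of the multiplicative Hecke operator, for arbitrary representatives acting by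
`τ ↦ ℓ τ` and `τ ↦ (τ + j) / ℓ`. -/
theorem hasLau_hecke_of (ℓ : ℕ) [NeZero ℓ] (αinf : GLp) (α : ZMod ℓ → GLp)
    (hinf : ∀ τ : ℍ, ((αinf • τ : ℍ) : ℂ) = (ℓ : ℂ) * τ)
    (hα : ∀ (j : ZMod ℓ) (τ : ℍ), ((α j • τ : ℍ) : ℂ) = ((τ : ℂ) + (j.val : ℕ)) / ℓ)
    (u : Mer) (x : LaurentSeries ℂ) (hu : HasLau 1 u x) :
    HasLau 1 (cmp αinf u * ∏ j : ZMod ℓ, cmp (α j) u) (heckeSer ℓ x) := by
  obtain ⟨v, rfl, rfl⟩ := hu
  obtain ⟨a, b, hb, rfl⟩ := IsFractionRing.div_surjective (A := HolCusp 1) v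
  have hb0 : b ≠ 0 := nonZeroDivisors.ne_zero hb
  obtain ⟨ga, hga, hgal⟩ := exists_hecke ℓ αinf α hinf hα a
  obtain ⟨gb, hgb, hgbl⟩ := exists_hecke ℓ αinf α hinf hα b
  have hlb : laurent 1 b ≠ 0 := fun h => hb0 (laurent_injective 1 (by rw [h, map_zero]))
  have hgb0 : gb ≠ 0 := by
    intro h
    rw [h, map_zero] at hgb
    have h2 : cuspIncl 1 b ≠ 0 := fun h3 => hb0 (cuspIncl_injective 1 (by rw [h3, map_zero]))
    have h3 : ∀ β : GLp, cmpHol β (cuspIncl 1 b) ≠ 0 := fun β h4 =>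
      h2 (cmpHol_injective β (by rw [h4, map_zero]))
    exact (mul_ne_zero (h3 αinf) (Finset.prod_ne_zero_iff.2 fun j _ => h3 (α j))) hgb.symm
  have hlgb : laurent 1 gb ≠ 0 := fun h => hgb0 (laurent_injective 1 (by rw [h, map_zero]))
  have e1 : cmp αinf (cuspToMer 1 (algebraMap _ _ a / algebraMap _ _ b))
        * ∏ j : ZMod ℓ, cmp (α j) (cuspToMer 1 (algebraMap _ _ a / algebraMap _ _ b))
      = algebraMap Hol Mer (cuspIncl 1 ga) * (algebraMap Hol Mer (cuspIncl 1 gb))⁻¹ := by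
    simp only [map_div₀, cuspToMer_algebraMap, cmp_algebraMap, Finset.prod_div_distrib]
    rw [hga, hgb, map_mul, map_mul, map_prod, map_prod, div_mul_div_comm, div_eq_mul_inv]
  have e2 : heckeSer ℓ (lauC 1 (algebraMap _ _ a / algebraMap _ _ b))
      = laurent 1 ga * (laurent 1 gb)⁻¹ := by
    rw [map_div₀, lauC_algebraMap, lauC_algebraMap, eq_mul_inv_iff_mul_eq₀ hlgb, hgal, hgbl,
      ← heckeSer_mul ℓ (isPrimitiveRoot_exp ℓ), div_mul_cancel₀ _ hlb]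
  rw [e1, e2]
  exact (HeckeLau.hasLau_of_holCusp ga).mul (HeckeLau.hasLau_of_holCusp gb).inv

end

end Fermat.Agent.ES.An
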