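import Fermat.Agent.ES.An.ToMer
import Fermat.Agent.ES.An.Char
import Fermat.Agent.ES.Defs
import Fermat.Agent.ES.B.Formal
import Fermat.Agent.ES.An.HeckeLau
import Mathlib.RingTheory.RootsOfUnity.AlgebraicallyClosed

/-! # ES/An-Hecke : the multiplicative Hecke operator, analytic versus formal, and the transfer formula. -/

set_option autoImplicit false

open AlgebraicCurve ModularCurve UpperHalfPlane
open scoped MatrixGroups IntermediateField Manifold ModularForm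

namespace Fermat.Agent.ES.An

open Fermat.Agent.S24

noncomputable section

open Fermat.Agent.S16.Shimura
open P2MW.S_ModularForm_heckeT_slash_eq_self_of_mem_Gamma0.ModularForm.HeckeSlashInvariance

variable (N : ℕ) [NeZero N] (ℓ : ℕ) [Fact ℓ.Prime]

theorem heckeRep_det_pos (x : OnePoint (ZMod ℓ)) : 0 < (heckeRep ℓ x).val.det := by
  induction x using OnePoint.rec with
  | infty => exact ModularForm.det_heckeDiagMatrix_pos ℓ
  | coe j => exact ModularForm.det_heckeMatrix_pos ℓ j.val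

/-- the representatives `α_x` in `GL₂(ℝ)⁺`. -/
def heckeP (x : OnePoint (ZMod ℓ)) : GLp := ⟨heckeRep ℓ x, heckeRep_det_pos ℓ x⟩

/-- the multiplicative Hecke operator on `Mer`. -/
def heckeMer (w : Mer) : Mer := ∏ x : OnePoint (ZMod ℓ), cmp (heckeP ℓ x) w

theorem heckeMer_pow (w : Mer) (m : ℕ) : heckeMer ℓ (w ^ m) = heckeMer ℓ w ^ m := by
  unfold heckeMer
  rw [← Finset.prod_pow]
  exact Finset.prod_congr rfl fun x _ => map_pow _ _ _

theorem heckeMer_ne_zero {w : Mer} (hw : w ≠ 0) : heckeMer ℓ w ≠ 0 := by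
  unfold heckeMer
  exact Finset.prod_ne_zero_iff.mpr fun x _ => (map_ne_zero _).mpr hw

theorem heckeP_mul_slp (hℓN : ¬ ℓ ∣ N) (γ : CongruenceSubgroup.Gamma0 N) (x : OnePoint (ZMod ℓ)) :
    heckeP ℓ x * slp (γ : SL(2, ℤ))
      = slp (corrT N ℓ hℓN γ x : SL(2, ℤ)) * heckeP ℓ (redMatrix ℓ (γ : SL(2, ℤ)) • x) :=
  Subtype.ext (corrT_spec N ℓ hℓN γ x)

/-- transfer formula (pure algebra from `corrT_spec`, `cmp_mul`; `x ↦ redMatrix ℓ γ • x` is a permutation). -/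
theorem cmp_heckeMer (hℓN : ¬ ℓ ∣ N) (w : Mer) (χ : CongruenceSubgroup.Gamma0 N →* ℂˣ)
    (h : IsChar w χ) (γ : CongruenceSubgroup.Gamma0 N) :
    cmp (slp (γ : SL(2, ℤ))) (heckeMer ℓ w)
      = ((∏ x : OnePoint (ZMod ℓ), χ (corrT N ℓ hℓN γ x) : ℂˣ) : ℂ) • heckeMer ℓ w := by
  have key : ∀ x : OnePoint (ZMod ℓ), cmp (slp (γ : SL(2, ℤ))) (cmp (heckeP ℓ x) w)
      = algebraMap ℂ Mer ((χ (corrT N ℓ hℓN γ x) : ℂˣ) : ℂ)
        * cmp (heckeP ℓ (redMatrix ℓ (γ : SL(2, ℤ)) • x)) w := by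
    intro x
    rw [← cmp_mul, heckeP_mul_slp N ℓ hℓN γ x, cmp_mul, h (corrT N ℓ hℓN γ x), map_smul,
      Algebra.smul_def]
  unfold heckeMer
  rw [map_prod, Finset.prod_congr rfl fun x _ => key x, Finset.prod_mul_distrib, Algebra.smul_def,
    Units.coe_prod, map_prod]
  congr 1
  exact Equiv.prod_comp (MulAction.toPerm (redMatrix ℓ (γ : SL(2, ℤ))))
    (fun x => cmp (heckeP ℓ x) w)

/-- formal versus analytic: `u(ℓτ)` has `q`-expansion `V_ℓ x` (`S24.QDict.ofPowerSeries_qExpansion_comp_mulH`);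
`u((τ+b)/ℓ)` has `q_ℓ`-expansion `twist (ζ^b) x`, `ζ = exp (2πi/ℓ)`; a `1`-periodic function with `q`-expansion `y` has
`q_ℓ`-expansion `V_ℓ y`. -/
theorem hasLau_heckeMer (u : Mer) (x : LaurentSeries ℂ) (hu : HasLau 1 u x) :
    HasLau 1 (heckeMer ℓ u) (heckeSer ℓ x) := by
  have hℓ : ℓ ≠ 0 := (Fact.out : ℓ.Prime).ne_zero
  have := hasLau_hecke_of ℓ (heckeP ℓ OnePoint.infty) (fun j => heckeP ℓ (j : OnePoint (ZMod ℓ)))
    (fun τ => ModularForm.coe_heckeDiagMatrix_smul hℓ τ)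
    (fun j τ => ModularForm.coe_heckeMatrix_smul hℓ j.val τ) u x hu
  unfold heckeMer
  rw [show (∏ x : OnePoint (ZMod ℓ), cmp (heckeP ℓ x) u)
    = cmp (heckeP ℓ OnePoint.infty) u * ∏ j : ZMod ℓ, cmp (heckeP ℓ (j : OnePoint (ZMod ℓ))) u from
    Fintype.prod_option (fun x : OnePoint (ZMod ℓ) => cmp (heckeP ℓ x) u)]
  exact this

theorem toMer_hecke (f g : FC N)
    (h : (g : LaurentSeries ℂ) = heckeSer ℓ (f : LaurentSeries ℂ)) :
    toMer N g = heckeMer ℓ (toMer N f) :=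
  (hasLau_toMer N g).eq_of_eq (h ▸ hasLau_heckeMer ℓ _ _ (hasLau_toMer N f))

/-- `iotaC` induces a bijection on `ℓ`-th roots of unity. -/
theorem restrictRootsOfUnity_iotaC_bijective :
    Function.Bijective (restrictRootsOfUnity (iotaC : Kb →+* ℂ) ℓ) := by
  have hinj : Function.Injective (restrictRootsOfUnity (iotaC : Kb →+* ℂ) ℓ) := by
    intro a b hab
    have h1 := congrArg (fun z : rootsOfUnity ℓ ℂ => ((z : ℂˣ) : ℂ)) hab
    simp only [restrictRootsOfUnity_coe_apply] at h1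
    exact Subtype.ext (Units.ext (iotaC.injective h1))
  refine (Nat.bijective_iff_injective_and_card _).mpr ⟨hinj, ?_⟩
  rw [HasEnoughRootsOfUnity.natCard_rootsOfUnity Kb ℓ, HasEnoughRootsOfUnity.natCard_rootsOfUnity ℂ ℓ]

/-- the `ℓ`-th roots of unity of `ℚ̄` and `ℂ` correspond. -/
theorem coeffMap_heckeSer (x : LaurentSeries Kb) :
    coeffMap iotaC (heckeSer ℓ x) = heckeSer ℓ (coeffMap iotaC x) := by
  unfold heckeSer normSer twistProd
  rw [map_mul, coeffMap_Vq, coeffMap_contract, map_prod]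
  congr 2
  rw [← (Equiv.ofBijective _ (restrictRootsOfUnity_iotaC_bijective ℓ)).prod_comp]
  refine Finset.prod_congr rfl fun z _ => ?_
  rw [coeffMap_twist]
  rfl

end

end Fermat.Agent.ES.An
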