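import Fermat.Agent.ES.An.Desc
import Fermat.Agent.ES.An.Dict
import Fermat.Agent.ES.An.EisMer
import Fermat.Agent.ES.An.Hecke

/-! # ES/An : the exported interface (K1)-(K5) over `ℚ̄`. -/

set_option autoImplicit false

open AlgebraicCurve ModularCurve UpperHalfPlane
open scoped MatrixGroups IntermediateField Manifold ModularForm

namespace Fermat.Agent.ES.An

open Fermat.Agent.S24

noncomputable section

open Fermat.Agent.S16.Shimura

variable (N : ℕ) [NeZero N]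

/-- `χ` is the character of the `m`-th roots (on `ℍ`) of `f ∈ F_ℚ̄`. -/
def HasChar (m : ℕ) (f : FN N) (χ : CongruenceSubgroup.Gamma0 N →* ℂˣ) : Prop :=
  HasCharC N m (bc N f) χ

variable {N}

/-- (K1) existence. -/
theorem exists_hasChar (m : ℕ) (hm : 0 < m) (f : FN N) (hf0 : f ≠ 0) (hf : DivBy Kb m f) :
    ∃ χ, HasChar N m f χ ∧ χ ^ m = 1 := by
  have hne : toMer N (bc N f) ≠ 0 := by
    rw [Ne, map_eq_zero, map_eq_zero]
    exact hf0
  obtain ⟨w, hw⟩ := exists_root m hm (toMer N (bc N f)) hne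
    (fun τ => (modelB N).dvd_ordAt m f hf τ)
  have hw0 : w ≠ 0 := by
    rintro rfl
    rw [zero_pow hm.ne'] at hw
    exact hne hw.symm
  obtain ⟨χ, hχ, hχm⟩ := exists_isChar_of_pow (N := N) m hm w hw0
    (fun γ => by rw [hw]; exact cmp_toMer N γ _)
  exact ⟨χ, ⟨w, hw0, hw, hχ⟩, hχm⟩

/-- (K1) uniqueness. -/
theorem HasChar.unique {m : ℕ} (hm : 0 < m) {f : FN N} {χ χ' : CongruenceSubgroup.Gamma0 N →* ℂˣ}
    (h : HasChar N m f χ) (h' : HasChar N m f χ') : χ = χ' :=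
  HasCharC.unique hm h h'

/-- (K2) multiplicativity. -/
theorem HasChar.mul {m : ℕ} {f g : FN N} {χ χ' : CongruenceSubgroup.Gamma0 N →* ℂˣ}
    (h : HasChar N m f χ) (h' : HasChar N m g χ') : HasChar N m (f * g) (χ * χ') := by
  unfold HasChar
  rw [map_mul]
  exact HasCharC.mul h h'

/-- (K2) compatibility between levels. -/
theorem HasChar.of_mul {m m' : ℕ} {f : FN N} {χ : CongruenceSubgroup.Gamma0 N →* ℂˣ}
    (h : HasChar N (m * m') f χ) : HasChar N m f (χ ^ m') := by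
  obtain ⟨w, hw0, hw, hχ⟩ := h
  exact ⟨w ^ m', pow_ne_zero _ hw0, by rw [← pow_mul, mul_comm m' m, hw], hχ.pow m'⟩

/-- (K3) kernel. -/
theorem hasChar_one_iff {m : ℕ} (hm : 0 < m) {f : FN N} (hf0 : f ≠ 0) :
    HasChar N m f 1 ↔ ∃ h : FN N, f = h ^ m := by
  constructor
  · intro h
    obtain ⟨g, hg⟩ := HasCharC.exists_root hm h
    exact exists_root_of_bc N m hm f g hg
  · rintro ⟨h, rfl⟩
    have hh : h ≠ 0 := by
      rintro rfl
      exact hf0 (zero_pow hm.ne')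
    unfold HasChar
    rw [map_pow]
    exact hasCharC_pow m (bc N h) (by rwa [Ne, map_eq_zero])

/-- (K4) existence of classes with prescribed good character. -/
theorem exists_of_isGood (ψ : CongruenceSubgroup.Gamma0 N →* ℂˣ) (hψ : IsGood ψ)
    (m : ℕ) (hm : 0 < m) (hψm : ψ ^ m = 1) :
    ∃ f : FN N, f ≠ 0 ∧ DivBy Kb m f ∧ HasChar N m f ψ := by
  obtain ⟨w, f, hw0, hc, hcusp, hw⟩ := exists_char_fun N ψ hψ m hm hψm
  have hf0 : f ≠ 0 := by
    rintro rfl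
    rw [map_zero] at hw
    exact hw0 (pow_eq_zero_iff hm.ne' |>.mp hw)
  have hfD : DivBy ℂ m f := (modelC N).divBy_of_char m f hf0 w hw ψ hψ hc hcusp
  obtain ⟨f', h, hh0, hf'⟩ := descent m hm f hf0 hfD
  have hf'0 : f' ≠ 0 := by
    rintro rfl
    rw [map_zero] at hf'
    exact mul_ne_zero hf0 (pow_ne_zero _ hh0) hf'.symm
  set w' : Mer := w * toMer N h with hw'
  have hth0 : toMer N h ≠ 0 := by rwa [Ne, map_eq_zero]
  have hw'0 : w' ≠ 0 := mul_ne_zero hw0 hth0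
  have hw'm : w' ^ m = toMer N (bc N f') := by
    rw [hf', map_mul, map_pow, hw', mul_pow, hw]
  have hc' : IsChar w' ψ := by
    have h1 : IsChar (toMer N h) (1 : CongruenceSubgroup.Gamma0 N →* ℂˣ) :=
      isChar_one_iff.mpr fun γ => cmp_toMer N γ h
    have h2 := hc.mul h1
    have h3 : ψ * (1 : CongruenceSubgroup.Gamma0 N →* ℂˣ) = ψ := mul_one ψ
    rw [h3] at h2
    exact h2
  have hcusp' : ∀ g : SL(2, ℤ), cmp (slp g) w' ∈ MerCusp N := by
    intro g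
    rw [hw', map_mul]
    exact mul_mem (hcusp g) (cmp_toMer_mem_MerCusp N g h)
  exact ⟨f', hf'0, (modelB N).divBy_of_char m f' hf'0 w' hw'm ψ hψ hc' hcusp',
    ⟨w', hw'0, hw'm, hc'⟩⟩

/-- (K5) Hecke equivariance. -/
theorem HasChar.hecke {m : ℕ} {f g : FN N} {χ χ' : CongruenceSubgroup.Gamma0 N →* ℂˣ}
    (ℓ : ℕ) [Fact ℓ.Prime] (hℓN : ¬ ℓ ∣ N)
    (hg : (g : LaurentSeries Kb) = heckeSer ℓ (f : LaurentSeries Kb))
    (h : HasChar N m f χ) (hχ' : ∀ γ, χ' γ = ∏ x : OnePoint (ZMod ℓ), χ (corrT N ℓ hℓN γ x)) :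
    HasChar N m g χ' := by
  obtain ⟨w, hw0, hw, hχ⟩ := h
  refine ⟨heckeMer ℓ w, heckeMer_ne_zero ℓ hw0, ?_, ?_⟩
  · rw [← heckeMer_pow, hw]
    refine (toMer_hecke N ℓ (bc N f) (bc N g) ?_).symm
    rw [coe_bc, coe_bc, hg, coeffMap_heckeSer]
  · intro γ
    rw [cmp_heckeMer N ℓ hℓN w χ hχ γ, hχ' γ]

/-- finiteness of the Kummer group. -/
theorem finite_classes (m : ℕ) (hm : 0 < m) :
    ∃ S : Finset (FN N), ∀ f : FN N, f ≠ 0 → DivBy Kb m f →
      ∃ s ∈ S, ∃ h : FN N, h ≠ 0 ∧ f = s * h ^ m := by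
  classical
  have hfin := finite_chars (N := N) m hm
  let rep : (CongruenceSubgroup.Gamma0 N →* ℂˣ) → FN N := fun χ =>
    if h : ∃ f : FN N, f ≠ 0 ∧ HasChar N m f χ then h.choose else 1
  refine ⟨hfin.toFinset.image rep, fun f hf0 hf => ?_⟩
  obtain ⟨χ, hχ, hχm⟩ := exists_hasChar m hm f hf0 hf
  have hex : ∃ f : FN N, f ≠ 0 ∧ HasChar N m f χ := ⟨f, hf0, hχ⟩
  have hrep : rep χ = hex.choose := dif_pos hex
  obtain ⟨hs0, hs⟩ := hex.choose_spec
  rw [← hrep] at hs0 hs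
  refine ⟨rep χ, Finset.mem_image.mpr ⟨χ, hfin.mem_toFinset.mpr hχm, rfl⟩, ?_⟩
  obtain ⟨k, hk0, hk⟩ := HasCharC.exists_eq_mul_pow hm hs hχ
  have h1 : bc N (f / rep χ) = k ^ m := by
    rw [map_div₀, hk, mul_div_cancel_left₀]
    rwa [Ne, map_eq_zero]
  obtain ⟨h₀, hh₀⟩ := exists_root_of_bc N m hm (f / rep χ) k h1
  refine ⟨h₀, ?_, ?_⟩
  · rintro rfl
    rw [zero_pow hm.ne'] at hh₀
    exact (div_ne_zero hf0 hs0) hh₀
  · rw [← hh₀, mul_div_cancel₀ _ hs0]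

end

end Fermat.Agent.ES.An
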