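import Fermat.Agent.ES.An.Basic

/-! # ES/An-ToMer : the embedding `toMer N : FC N →ₐ[ℂ] Mer`, `j(q^d) ↦ j(dτ)`.

Construction: `lauC 1 : MerC 1 → ℂ((q))` is an injective field hom with `lauC 1 (j(dτ)) = j(q^d)`
(`S24.laurent_jd`, `S24.QDict.coeffMap_jSer`); `FC N = adjoin ℂ {j(q^d)}` (as in `S24.Gen.FN_eq_adjoin`) is therefore
the image of `adjoin ℂ {j(dτ)} ⊆ MerC 1`; invert and compose with `cuspToMer 1`. -/

set_option autoImplicit false

open AlgebraicCurve ModularCurve UpperHalfPlane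
open scoped MatrixGroups IntermediateField Manifold ModularForm

namespace Fermat.Agent.ES.An

open Fermat.Agent.S24

noncomputable section

variable (N : ℕ) [NeZero N]

/-- `u` is a quotient of two modular forms of the same weight on `Γ₀(N)`. -/
def IsMFr (u : Mer) : Prop :=
  ∃ (k : ℤ) (A B : Hol), Sturm.IsMF N k (A : ℍ → ℂ) ∧ Sturm.IsMF N k (B : ℍ → ℂ) ∧ B ≠ 0 ∧
    u = algebraMap Hol Mer A / algebraMap Hol Mer B

namespace ToMerAux

theorem coeffEmb_algebraMap (r : ℚ) :
    coeffEmb ℂ (algebraMap ℚ (LaurentSeries ℚ) r)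
      = algebraMap ℂ (LaurentSeries ℂ) (algebraMap ℚ ℂ r) := by
  rw [algebraMap_laurentSeries_eq_single, algebraMap_laurentSeries_eq_single, coeffEmb,
    coeffMap_single]

theorem coeffEmb_mem_adjoin {x : LaurentSeries ℚ}
    (hx : x ∈ IntermediateField.adjoin ℚ (divisorExpansions N)) :
    coeffEmb ℂ x ∈ IntermediateField.adjoin ℂ (Set.range fun d : Dv N => jSerC d.1) := by
  induction hx using IntermediateField.adjoin_induction with
  | mem x hx =>
    obtain ⟨d, hd0, hd, rfl⟩ := hx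
    exact IntermediateField.subset_adjoin _ _ ⟨⟨d, hd⟩, rfl⟩
  | algebraMap r =>
    rw [coeffEmb_algebraMap]
    exact IntermediateField.algebraMap_mem _ _
  | add x y hx hy ihx ihy =>
    rw [map_add]
    exact add_mem ihx ihy
  | inv x hx ih =>
    rw [map_inv₀]
    exact inv_mem ih
  | mul x y hx hy ihx ihy =>
    rw [map_mul]
    exact mul_mem ihx ihy

theorem coeff_algebraMap_mul (c : ℂ) (x : LaurentSeries ℂ) (m : ℤ) :
    (algebraMap ℂ (LaurentSeries ℂ) c * x).coeff m = c * x.coeff m := by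
  rw [algebraMap_laurentSeries_eq_single, HahnSeries.coeff_single_zero_mul]

/-- `j(dτ)` in `HolCusp 1`. -/
def jdCusp (d : ℕ) [NeZero d] : HolCusp 1 := ⟨jd d, jd_mem_HolCusp_one d⟩

/-- `j(dτ)` in `MerC 1`. -/
def jdMerC (d : ℕ) [NeZero d] : MerC 1 := algebraMap (HolCusp 1) (MerC 1) (jdCusp d)

theorem coeffMap_iotaC_jSer (d : ℕ) [NeZero d] : coeffMap iotaC (jSer d) = jSerC d := by
  rw [jSer, jSerC, coeffEmb, coeffEmb, coeffMap_coeffMap]
  exact coeffMap_congr (Subsingleton.elim _ _) _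

theorem lauC_jdMerC (d : ℕ) [NeZero d] : lauC 1 (jdMerC d) = jSerC d := by
  rw [jdMerC, lauC_algebraMap, jdCusp, laurent_jd, coeffMap_iotaC_jSer]

theorem cuspToMer_jdMerC (d : ℕ) [NeZero d] : cuspToMer 1 (jdMerC d) = jdMer d := by
  rw [jdMerC, cuspToMer_algebraMap]
  rfl

theorem hasLau_jdMer (d : ℕ) [NeZero d] : HasLau 1 (jdMer d) (jSerC d) :=
  ⟨jdMerC d, cuspToMer_jdMerC d, lauC_jdMerC d⟩

end ToMerAux

open ToMerAux

theorem FC_eq_adjoin :
    laurentBaseChange ℂ (modularFunctionFieldFull N)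
      = IntermediateField.adjoin ℂ (Set.range fun d : Dv N => jSerC d.1) := by
  apply le_antisymm
  · unfold laurentBaseChange
    rw [IntermediateField.adjoin_le_iff]
    rintro _ ⟨x, hx, rfl⟩
    exact coeffEmb_mem_adjoin N hx
  · rw [IntermediateField.adjoin_le_iff]
    rintro _ ⟨d, rfl⟩
    exact jSerC_mem N d.1 d.2

namespace ToMerAux

theorem FC_le_fieldRange :
    laurentBaseChange ℂ (modularFunctionFieldFull N) ≤ (lauC 1).fieldRange := by
  rw [FC_eq_adjoin, IntermediateField.adjoin_le_iff]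
  rintro _ ⟨d, rfl⟩
  exact ⟨jdMerC d.1, lauC_jdMerC d.1⟩

/-- Evaluation of polynomials at the formal generators `j(q^d)`. -/
def phiFC : MvPolynomial (Dv N) ℂ →ₐ[ℂ] FC N :=
  MvPolynomial.aeval fun d => jFC N d.1 d.2

theorem coe_phiFC (p : MvPolynomial (Dv N) ℂ) :
    ((phiFC N p : FC N) : LaurentSeries ℂ) = MvPolynomial.aeval (fun d : Dv N => jSerC d.1) p := by
  have := MvPolynomial.comp_aeval_apply (f := fun d : Dv N => jFC N d.1 d.2)
    (laurentBaseChange ℂ (modularFunctionFieldFull N)).val p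
  exact this

theorem exists_phiFC_div (f : FC N) :
    ∃ p q : MvPolynomial (Dv N) ℂ, phiFC N q ≠ 0 ∧ f = phiFC N p / phiFC N q := by
  have hf : (f : LaurentSeries ℂ) ∈
      IntermediateField.adjoin ℂ (Set.range fun d : Dv N => jSerC d.1) := by
    rw [← FC_eq_adjoin]
    exact f.2
  rw [IntermediateField.mem_adjoin_range_iff] at hf
  obtain ⟨r, s, hrs⟩ := hf
  by_cases hs : phiFC N s = 0
  · refine ⟨0, 1, by simp, ?_⟩
    have hs' : MvPolynomial.aeval (fun d : Dv N => jSerC d.1) s = 0 := by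
      rw [← coe_phiFC, hs]; rfl
    rw [hs', div_zero] at hrs
    have : f = 0 := Subtype.ext hrs
    simp [this]
  · refine ⟨r, s, hs, Subtype.ext ?_⟩
    rw [hrs, ← coe_phiFC, ← coe_phiFC]
    rfl

/-- Induction principle for `FC N`. -/
theorem FC_induction {P : FC N → Prop} (hj : ∀ d : Dv N, P (jFC N d.1 d.2))
    (hc : ∀ c : ℂ, P (algebraMap ℂ (FC N) c)) (hadd : ∀ f g, P f → P g → P (f + g))
    (hmul : ∀ f g, P f → P g → P (f * g)) (hinv : ∀ f, P f → P f⁻¹) (f : FC N) : P f := by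
  have hpoly : ∀ p, P (phiFC N p) := by
    intro p
    induction p using MvPolynomial.induction_on with
    | C a =>
      rw [phiFC, MvPolynomial.aeval_C]
      exact hc a
    | add p q hp hq =>
      rw [map_add]
      exact hadd _ _ hp hq
    | mul_X p d hp =>
      have e : phiFC N (MvPolynomial.X d) = jFC N d.1 d.2 := by
        rw [phiFC, MvPolynomial.aeval_X]
      rw [map_mul, e]
      exact hmul _ _ hp (hj d)
  obtain ⟨p, q, -, rfl⟩ := exists_phiFC_div N f
  rw [div_eq_mul_inv]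
  exact hmul _ _ (hpoly p) (hinv _ (hpoly q))

end ToMerAux

/-- existence of the embedding, together with the `q`-expansion principle. -/
theorem exists_toMer : ∃ φ : FC N →ₐ[ℂ] Mer, ∀ f : FC N, HasLau 1 (φ f) (f : LaurentSeries ℂ) := by
  refine ⟨(cuspToMer 1).comp ((AlgEquiv.ofInjectiveField (lauC 1)).symm.toAlgHom.comp
    (IntermediateField.inclusion (FC_le_fieldRange N))), fun f => ?_⟩
  refine ⟨(AlgEquiv.ofInjectiveField (lauC 1)).symm
    (IntermediateField.inclusion (FC_le_fieldRange N) f), rfl, ?_⟩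
  have h := (AlgEquiv.ofInjectiveField (lauC 1)).apply_symm_apply
    (IntermediateField.inclusion (FC_le_fieldRange N) f)
  exact congrArg Subtype.val h

/-- The embedding of the function field of `X₀(N)` over `ℂ` into the meromorphic functions. -/
def toMer : FC N →ₐ[ℂ] Mer := (exists_toMer N).choose

theorem hasLau_toMer (f : FC N) : HasLau 1 (toMer N f) (f : LaurentSeries ℂ) :=
  (exists_toMer N).choose_spec f

theorem toMer_jFC (d : Dv N) : toMer N (jFC N d.1 d.2) = jdMer d.1 :=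
  (hasLau_toMer N (jFC N d.1 d.2)).eq_of_eq (hasLau_jdMer d.1)

theorem toMer_jC : toMer N (jC N) = jMer :=
  toMer_jFC N ⟨1, one_dvd N⟩

theorem toMer_injective : Function.Injective (toMer N) := (toMer N).toRingHom.injective

theorem algHom_ext_FC {M : Type*} [Field M] [Algebra ℂ M] (σ τ : FC N →ₐ[ℂ] M)
    (h : ∀ d : Dv N, σ (jFC N d.1 d.2) = τ (jFC N d.1 d.2)) : σ = τ := by
  ext f
  induction f using FC_induction N with
  | hj d => exact h d
  | hc c => rw [AlgHom.commutes, AlgHom.commutes]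
  | hadd f g hf hg => rw [map_add, map_add, hf, hg]
  | hmul f g hf hg => rw [map_mul, map_mul, hf, hg]
  | hinv f hf => rw [map_inv₀, map_inv₀, hf]

theorem transcendental_jC : Transcendental ℂ (jC N) := by
  rw [transcendental_iff]
  intro p hp
  by_contra hp0
  have h1 : Polynomial.aeval (coeffEmb ℂ jq) p = 0 := by
    have h := congrArg (laurentBaseChange ℂ (modularFunctionFieldFull N)).val hp
    rw [← Polynomial.aeval_algHom_apply, map_zero] at h
    have e : (laurentBaseChange ℂ (modularFunctionFieldFull N)).val (jC N) = coeffEmb ℂ jq := by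
      show coeffEmb ℂ (qExpand ℚ 1 jq) = coeffEmb ℂ jq
      rw [qExpand_one_apply]
    rwa [e] at h
  rw [Polynomial.aeval_eq_sum_range] at h1
  have h2 := congrArg (fun x : LaurentSeries ℂ => x.coeff (-(p.natDegree : ℤ))) h1
  simp only [HahnSeries.coeff_zero] at h2
  rw [HahnSeries.coeff_sum] at h2
  rw [Finset.sum_eq_single p.natDegree] at h2
  · rw [Algebra.smul_def, coeff_algebraMap_mul, ← map_pow, coeffEmb_coeff, coeff_jq_pow_self] at h2
    simp at h2
    exact hp0 h2
  · intro k hk hkn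
    rw [Algebra.smul_def, coeff_algebraMap_mul, ← map_pow, coeffEmb_coeff, coeff_jq_pow_of_lt]
    · simp
    · have : k < p.natDegree := by
        have := Finset.mem_range.mp hk
        omega
      omega
  · intro h
    exact absurd (Finset.mem_range.mpr (Nat.lt_succ_self _)) h

/-- invariance under `Γ₀(N)` (`S24.jd_smul_of_mem_Gamma0`). -/
theorem cmp_toMer (γ : CongruenceSubgroup.Gamma0 N) (f : FC N) :
    cmp (slp (γ : SL(2, ℤ))) (toMer N f) = toMer N f := by
  induction f using FC_induction N with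
  | hj d =>
    rw [toMer_jFC, jdMer, cmp_algebraMap]
    refine congrArg (algebraMap Hol Mer) (Subtype.ext ?_)
    funext τ
    exact jd_smul_of_mem_Gamma0 N d.1 d.2 γ γ.2 τ
  | hc c => rw [AlgHom.commutes, AlgHom.commutes]
  | hadd f g hf hg => rw [map_add, map_add, hf, hg]
  | hmul f g hf hg => rw [map_mul, map_mul, hf, hg]
  | hinv f hf => rw [map_inv₀, map_inv₀, hf]

/-- (`S24.mem_Gamma0_of_jd_smul`). -/
theorem mem_Gamma0_of_cmp (g : SL(2, ℤ)) (h : ∀ f : FC N, cmp (slp g) (toMer N f) = toMer N f) :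
    g ∈ CongruenceSubgroup.Gamma0 N := by
  apply mem_Gamma0_of_jd_smul N g
  intro τ
  have h1 := h (jFC N N dvd_rfl)
  rw [toMer_jFC N ⟨N, dvd_rfl⟩, jdMer, cmp_algebraMap] at h1
  have h2 := IsFractionRing.injective Hol Mer h1
  exact congrFun (congrArg Subtype.val h2) τ

/-- (`S24.compInv_jd_mem_HolCusp`). -/
theorem cmp_toMer_mem_MerCusp (g : SL(2, ℤ)) (f : FC N) :
    cmp (slp g) (toMer N f) ∈ MerCusp N := by
  induction f using FC_induction N with
  | hj d =>
    rw [toMer_jFC, jdMer, cmp_algebraMap]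
    refine ⟨algebraMap (HolCusp N) (MerC N)
      ⟨compInv g⁻¹ (jd d.1), compInv_jd_mem_HolCusp N g⁻¹ d⟩, ?_⟩
    show cuspToMer N _ = _
    rw [cuspToMer_algebraMap]
    refine congrArg (algebraMap Hol Mer) (Subtype.ext ?_)
    funext τ
    show jd d.1 ((g⁻¹)⁻¹ • τ) = jd d.1 (slp g • τ)
    rw [inv_inv, slp_smul]
  | hc c =>
    rw [AlgHom.commutes, AlgHom.commutes]
    exact IntermediateField.algebraMap_mem _ _
  | hadd f g hf hg => rw [map_add, map_add]; exact add_mem hf hg
  | hmul f g hf hg => rw [map_mul, map_mul]; exact mul_mem hf hg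
  | hinv f hf => rw [map_inv₀, map_inv₀]; exact inv_mem hf

namespace IsMFr

variable {N}

theorem const (c : ℂ) : IsMFr N (algebraMap ℂ Mer c) := by
  refine ⟨0, algebraMap ℂ Hol c, 1, ?_, Sturm.IsMF.one, one_ne_zero, ?_⟩
  · have h := (Sturm.IsMF.one (N := N)).smul c
    convert h using 1
    funext τ
    simp [Algebra.algebraMap_eq_smul_one]
  · rw [map_one, div_one, ← IsScalarTower.algebraMap_apply]

theorem add {u v : Mer} (hu : IsMFr N u) (hv : IsMFr N v) : IsMFr N (u + v) := by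
  obtain ⟨k, A, B, hA, hB, hB0, rfl⟩ := hu
  obtain ⟨k', A', B', hA', hB', hB0', rfl⟩ := hv
  have i := IsFractionRing.injective Hol Mer
  refine ⟨k + k', A * B' + B * A', B * B', (hA.mul hB').add (hB.mul hA'), hB.mul hB',
    mul_ne_zero hB0 hB0', ?_⟩
  rw [map_add, map_mul, map_mul, map_mul,
    div_add_div _ _ ((map_ne_zero_iff _ i).mpr hB0) ((map_ne_zero_iff _ i).mpr hB0')]

theorem mul {u v : Mer} (hu : IsMFr N u) (hv : IsMFr N v) : IsMFr N (u * v) := by
  obtain ⟨k, A, B, hA, hB, hB0, rfl⟩ := hu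
  obtain ⟨k', A', B', hA', hB', hB0', rfl⟩ := hv
  refine ⟨k + k', A * A', B * B', hA.mul hA', hB.mul hB', mul_ne_zero hB0 hB0', ?_⟩
  rw [map_mul, map_mul, div_mul_div_comm]

theorem inv {u : Mer} (hu : IsMFr N u) : IsMFr N u⁻¹ := by
  obtain ⟨k, A, B, hA, hB, hB0, rfl⟩ := hu
  by_cases hA0 : A = 0
  · refine ⟨k, A, B, hA, hB, hB0, ?_⟩
    rw [hA0, map_zero, zero_div, inv_zero]
  · exact ⟨k, B, A, hB, hA, hA0, by rw [inv_div]⟩

end IsMFr

/-- `j(dτ) = E₄(dτ)³ / Δ(dτ)`, and `IsMFr` elements form a subfield containing `ℂ`. -/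
theorem isMFr_toMer (f : FC N) : IsMFr N (toMer N f) := by
  induction f using FC_induction N with
  | hj d =>
    rw [toMer_jFC]
    have hA := Sturm.isMF_Ad N d.1 d.2
    have hB := Sturm.isMF_Bd N d.1 d.2
    have hB0 : (⟨Sturm.Bd d.1, hB.mdiff⟩ : Hol) ≠ 0 := by
      intro h
      exact Sturm.Bd_ne_zero d.1 UpperHalfPlane.I (congrFun (congrArg Subtype.val h) _)
    refine ⟨12, ⟨Sturm.Ad d.1, hA.mdiff⟩, ⟨Sturm.Bd d.1, hB.mdiff⟩, hA, hB, hB0, ?_⟩
    rw [eq_div_iff ((map_ne_zero_iff _ (IsFractionRing.injective Hol Mer)).mpr hB0), jdMer,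
      ← map_mul]
    exact congrArg (algebraMap Hol Mer) (Subtype.ext (Sturm.jd_mul_Bd d.1))
  | hc c => rw [AlgHom.commutes]; exact IsMFr.const c
  | hadd f g hf hg => rw [map_add]; exact hf.add hg
  | hmul f g hf hg => rw [map_mul]; exact hf.mul hg
  | hinv f hf => rw [map_inv₀]; exact hf.inv

end

end Fermat.Agent.ES.An
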